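import Fermat.Agent.S18.AT.InO

set_option autoImplicit false

/-! # S18 / AT / Comb : coprime combination of congruences -/

noncomputable section

namespace Fermat.Agent.S18

open Polynomial IntermediateField

variable {R K E : Type} [CommRing R] [IsDomain R] [IsDiscreteValuationRing R] [Field K]
  [Algebra R K] [Field E] [Algebra K E]

/-- **coprime combination**: `y₁ ≡ P(t) ε`, `y₂ ≡ Q(t) ε`, `y₁, y₂` integral over `R[t]`, `P, Q` comaximal
in `R[X]`  ⟹  `ε ≡` an element integral over `R[t]`.  (`a P + b Q = 1`, `y = a(t) y₁ + b(t) y₂`.) -/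
theorem cong_of_isCoprime {ϖ : R} (hϖ : Irreducible ϖ) {t : E} {P Q : R[X]} (hPQ : IsCoprime P Q)
    {ε y₁ y₂ : E} (h₁ : y₁ ∈ CInt R K t) (h₂ : y₂ ∈ CInt R K t)
    (c₁ : CongA K ϖ t y₁ (evR R K t P * ε)) (c₂ : CongA K ϖ t y₂ (evR R K t Q * ε)) :
    ∃ y ∈ CInt R K t, CongA K ϖ t y ε := by
  obtain ⟨a, b, hab⟩ := hPQ
  refine ⟨evR R K t a * y₁ + evR R K t b * y₂,
    add_mem (mul_mem (evR_mem_CInt t a) h₁) (mul_mem (evR_mem_CInt t b) h₂), ?_⟩
  have h3 := (c₁.mul_left hϖ (InO.of_mem_CInt hϖ (evR_mem_CInt t a))).add hϖ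
    (c₂.mul_left hϖ (InO.of_mem_CInt hϖ (evR_mem_CInt t b)))
  have h4 : evR R K t a * (evR R K t P * ε) + evR R K t b * (evR R K t Q * ε) = ε := by
    have := congrArg (evR R K t) hab
    rw [map_add, map_mul, map_mul, map_one] at this
    linear_combination ε * this
  rwa [h4] at h3

end Fermat.Agent.S18
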