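import Fermat.Agent.S18.AT.Inv

set_option autoImplicit false
set_option linter.unusedSectionVars false
set_option linter.style.haveILetI false
set_option linter.unnecessarySimpa false

/-!
# S18 / AT : the gluing step (5)

If `e` is idempotent modulo `ϖ O_E` and congruent modulo `ϖ O_E` to an element of `C_x` and to an
element of `C_{1/x}`, then `e` is congruent to a constant `r ∈ R`.

Ingredients: `C_x ∩ C_{1/x} = R` (`glue_inter`), `H¹ = C_mid / (C_x + C_{1/x})` is a finitely generated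
`R`-module, hence has bounded `ϖ`-torsion (`glue_bounded_torsion`), lifting of idempotents modulo
`ϖⁿ` and their uniqueness (`glue_idem_lift`, `glue_idem_unique`).
-/

noncomputable section

namespace Fermat.Agent.S18

open Polynomial IntermediateField Module

/-! ### abstract idempotent lemmas -/

theorem glue_idem_lift {S : Type*} [CommRing S] (π a c : S) (h : a ^ 2 - a = π * c) (n : ℕ) :
    ∃ a' c' d' : S, a' ^ 2 - a' = π ^ (n + 1) * c' ∧ a' - a = π * d' := by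
  induction n with
  | zero => exact ⟨a, c, 0, by simpa using h, by simp⟩
  | succ n ih =>
    obtain ⟨a', c', d', h1, h2⟩ := ih
    refine ⟨3 * a' ^ 2 - 2 * a' ^ 3, π ^ n * c' ^ 2 * (4 * a' ^ 2 - 4 * a' - 3),
      d' + π ^ n * c' * (1 - 2 * a'), ?_, ?_⟩
    · have e : (3 * a' ^ 2 - 2 * a' ^ 3) ^ 2 - (3 * a' ^ 2 - 2 * a' ^ 3) =
          (a' ^ 2 - a') ^ 2 * (4 * a' ^ 2 - 4 * a' - 3) := by ring
      rw [e, h1]; ring
    · have e : 3 * a' ^ 2 - 2 * a' ^ 3 - a = (a' - a) + (a' ^ 2 - a') * (1 - 2 * a') := by ring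
      rw [e, h1, h2]; ring

theorem glue_idem_unique {S : Type*} [CommRing S] (π u v U V d : S) (n : ℕ)
    (hu : u ^ 2 - u = π ^ n * U) (hv : v ^ 2 - v = π ^ n * V) (hd : u - v = π * d) :
    ∃ w, u - v = π ^ n * w := by
  have key : (u - v) ^ 3 - (u - v) = π ^ n * ((u + 1 - 3 * v) * U - (v + 1 - 3 * u) * V) := by
    linear_combination (u + 1 - 3 * v) * hu - (v + 1 - 3 * u) * hv
  have main : ∀ j, j + 1 ≤ n → ∃ w, u - v = π ^ (j + 1) * w := by
    intro j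
    induction j with
    | zero => intro _; exact ⟨d, by simpa using hd⟩
    | succ j ih =>
      intro hj
      obtain ⟨w, hw⟩ := ih (by omega)
      obtain ⟨m, rfl⟩ : ∃ m, n = j + 1 + 1 + m := ⟨n - (j + 1 + 1), by omega⟩
      refine ⟨π ^ (2 * j + 1) * w ^ 3 - π ^ m * ((u + 1 - 3 * v) * U - (v + 1 - 3 * u) * V), ?_⟩
      have e : u - v = (u - v) ^ 3 - ((u - v) ^ 3 - (u - v)) := by ring
      rw [e, key]
      conv_lhs => rw [hw]
      ring
  rcases n with _ | n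
  · exact ⟨u - v, by simp⟩
  · exact main n le_rfl

variable {R K E : Type} [CommRing R] [IsDomain R] [IsDiscreteValuationRing R] [Field K]
  [Algebra R K] [IsFractionRing R K] [Field E] [Algebra K E]

/-- the coefficients of the minimal polynomial over `K(t)` of an element of `C_t` lie in `R[t]`. -/
theorem glue_coeff_minpoly {t : E} (ht : Transcendental K t) {y : E} (hy : y ∈ CInt R K t)
    (L : IntermediateField K E) (hL : L = K⟮t⟯) (i : ℕ) :
    (((minpoly L y).coeff i : L) : E) ∈ Set.range (evR R K t) := by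
  subst hL
  letI := chartAlg R K t
  letI := chartAlgL R K t
  haveI := chart_tower (R := R) (K := K) t
  haveI := chart_isFractionRing (R := R) ht
  have hy' : IsIntegral R[X] y := hy
  rw [minpoly.isIntegrallyClosed_eq_field_fractions' K⟮t⟯ hy', coeff_map]
  exact ⟨_, (coe_evL t _).symm⟩

theorem glue_isIntegral_L {t : E} {y : E} (hy : y ∈ CInt R K t)
    (L : IntermediateField K E) (hL : L = K⟮t⟯) : IsIntegral L y := by
  subst hL
  letI := chartAlg R K t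
  letI := chartAlgL R K t
  haveI := chart_tower (R := R) (K := K) t
  have hy' : IsIntegral R[X] y := hy
  exact hy'.tower_top

theorem glue_adjoin_inv (x : E) : K⟮x⟯ = K⟮x⁻¹⟯ := by
  apply le_antisymm
  · rw [adjoin_simple_le_iff]
    have := inv_mem (mem_adjoin_simple_self K x⁻¹)
    rwa [inv_inv] at this
  · rw [adjoin_simple_le_iff]
    exact inv_mem (mem_adjoin_simple_self K x)

theorem glue_transcendental_inv {x : E} (hx : Transcendental K x) : Transcendental K x⁻¹ := by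
  intro h
  apply hx
  have := h.inv
  rwa [inv_inv] at this

/-- `R[x] ∩ R[1/x] = R`. -/
theorem glue_range_inter {x : E} (hx : Transcendental K x) {a : E}
    (h1 : a ∈ Set.range (evR R K x)) (h2 : a ∈ Set.range (evR R K x⁻¹)) :
    a ∈ Set.range (rE R K E) := by
  have hx0 : x ≠ 0 := by
    rintro rfl
    exact hx isAlgebraic_zero
  obtain ⟨p, rfl⟩ := h1
  obtain ⟨q, hq⟩ := h2
  have h := evR_mul_inv_pow (R := R) (K := K) (inv_ne_zero hx0) q (le_refl q.natDegree)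
  rw [inv_inv, hq] at h
  have h3 : p * X ^ q.natDegree = reflect q.natDegree q := by
    apply evR_injective (R := R) hx
    rw [map_mul, map_pow, evR_X, h]
  rcases eq_or_ne p 0 with rfl | hp
  · exact ⟨0, by simp⟩
  have h4 : (p * X ^ q.natDegree).natDegree = p.natDegree + q.natDegree := by
    rw [natDegree_mul_X_pow _ hp]
  have h5 : (reflect q.natDegree q).natDegree ≤ q.natDegree := by
    have := natDegree_reflect_le (p := q) (N := q.natDegree)
    simpa using this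
  rw [← h3, h4] at h5
  have h6 : p.natDegree = 0 := by omega
  rw [eq_C_of_natDegree_eq_zero h6, evR_C]
  exact ⟨_, rfl⟩

/-- `C_x ∩ C_{1/x} = R`. -/
theorem glue_inter {x : E} (hx : Transcendental K x)
    (hconst : ∀ y : E, IsAlgebraic K y → y ∈ (algebraMap K E).range) {y : E}
    (h1 : y ∈ CInt R K x) (h2 : y ∈ CInt R K x⁻¹) : ∃ r : R, y = rE R K E r := by
  set L : IntermediateField K E := K⟮x⟯ with hL
  have hint : IsIntegral L y := glue_isIntegral_L h1 L rfl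
  set P : E[X] := (minpoly L y).map (algebraMap L E) with hP
  have hPm : P.Monic := (minpoly.monic hint).map _
  have hPl : P ∈ lifts (rE R K E) := by
    rw [lifts_iff_coeff_lifts]
    intro i
    rw [hP, coeff_map]
    exact glue_range_inter hx (glue_coeff_minpoly hx h1 L rfl i)
      (glue_coeff_minpoly (glue_transcendental_inv hx) h2 L (glue_adjoin_inv x) i)
  obtain ⟨q, hq, -, hqm⟩ := lifts_and_natDegree_eq_and_monic hPl hPm
  have hPy : P.eval y = 0 := by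
    rw [hP, eval_map_algebraMap]
    exact minpoly.aeval L y
  have hqy : eval₂ (rE R K E) y q = 0 := by rw [← eval_map, hq, hPy]
  have halg : IsAlgebraic K y := by
    refine ⟨q.map (algebraMap R K), (hqm.map _).ne_zero, ?_⟩
    rw [aeval_def, eval₂_map]
    exact hqy
  obtain ⟨a, rfl⟩ := hconst y halg
  have ha : IsIntegral R a := by
    refine ⟨q, hqm, ?_⟩
    apply (algebraMap K E).injective
    rw [map_zero, hom_eval₂]
    exact hqy
  obtain ⟨r, rfl⟩ := IsIntegrallyClosed.isIntegral_iff.1 ha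
  exact ⟨r, rfl⟩

/-- `C_mid`: the elements `y` with `xᵏ y ∈ C_x` for some `k`. -/
def CMid (R K : Type) {E : Type} [CommRing R] [Field K] [Algebra R K] [Field E] [Algebra K E]
    (x : E) : Subring E where
  carrier := {y | ∃ k : ℕ, x ^ k * y ∈ CInt R K x}
  mul_mem' := by
    rintro a b ⟨k, hk⟩ ⟨l, hl⟩
    refine ⟨k + l, ?_⟩
    have e : x ^ (k + l) * (a * b) = (x ^ k * a) * (x ^ l * b) := by rw [pow_add]; ring
    rw [e]; exact mul_mem hk hl
  one_mem' := ⟨0, by simpa using one_mem (CInt R K x)⟩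
  add_mem' := by
    rintro a b ⟨k, hk⟩ ⟨l, hl⟩
    refine ⟨k + l, ?_⟩
    have e : x ^ (k + l) * (a + b) = x ^ l * (x ^ k * a) + x ^ k * (x ^ l * b) := by
      rw [pow_add]; ring
    rw [e]
    exact add_mem (mul_mem (pow_mem (self_mem_CInt x) l) hk)
      (mul_mem (pow_mem (self_mem_CInt x) k) hl)
  zero_mem' := ⟨0, by simpa using zero_mem (CInt R K x)⟩
  neg_mem' := by
    rintro a ⟨k, hk⟩
    exact ⟨k, by rw [mul_neg]; exact neg_mem hk⟩

theorem mem_CMid {x y : E} : y ∈ CMid R K x ↔ ∃ k : ℕ, x ^ k * y ∈ CInt R K x := Iff.rfl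

theorem CInt_le_CMid (x : E) : CInt R K x ≤ CMid R K x :=
  fun y hy => ⟨0, by simpa using hy⟩

theorem CInt_inv_le_CMid {x : E} (hx : x ≠ 0) : CInt R K x⁻¹ ≤ CMid R K x := by
  intro y hy
  obtain ⟨k, hk⟩ := fin_to_inf (inv_ne_zero hx) hy
  rw [inv_inv] at hk
  exact ⟨k, hk⟩

/-- `C_mid ∩ ϖ O_E = ϖ C_mid`. -/
theorem mem_CMid_of_mul_of_InO {x : E} (hx : Transcendental K x) {ϖ : R} (hϖ : Irreducible ϖ)
    {z : E} (h1 : rE R K E ϖ * z ∈ CMid R K x) (h2 : InO K ϖ x z) : z ∈ CMid R K x := by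
  obtain ⟨k, hk⟩ := h1
  refine ⟨k, mem_CInt_of_mul_of_InO hx hϖ ?_ ?_⟩
  · have e : rE R K E ϖ * (x ^ k * z) = x ^ k * (rE R K E ϖ * z) := by ring
    rw [e]; exact hk
  · exact (InO.of_mem_CInt hϖ (pow_mem (self_mem_CInt x) k)).mul hϖ h2

/-- `C_x + C_{1/x}` as an `R`-submodule of `E`. -/
def glueN (R K : Type) {E : Type} [CommRing R] [Field K] [Algebra R K] [Field E] [Algebra K E]
    (x : E) : letI := Module.compHom E (rE R K E); Submodule R E :=
  letI := Module.compHom E (rE R K E)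
  { carrier := {y | ∃ u ∈ CInt R K x, ∃ u' ∈ CInt R K x⁻¹, y = u + u'}
    add_mem' := by
      rintro _ _ ⟨u, hu, u', hu', rfl⟩ ⟨v, hv, v', hv', rfl⟩
      exact ⟨u + v, add_mem hu hv, u' + v', add_mem hu' hv', by ring⟩
    zero_mem' := ⟨0, zero_mem _, 0, zero_mem _, by simp⟩
    smul_mem' := by
      rintro c _ ⟨u, hu, u', hu', rfl⟩
      exact ⟨rE R K E c * u, mul_mem (rE_mem_CInt x c) hu, rE R K E c * u',
        mul_mem (rE_mem_CInt x⁻¹ c) hu', mul_add _ _ _⟩ }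

/-- `H¹ = C_mid / (C_x + C_{1/x})` is a finitely generated `R`-module. -/
theorem glue_exists_fg [CharZero K] {x : E} (hx : Transcendental K x)
    (hfin : FiniteDimensional K⟮x⟯ E) :
    letI := Module.compHom E (rE R K E)
    ∃ G : Finset E, ∀ z ∈ CMid R K x, z ∈ glueN R K x ⊔ Submodule.span R (G : Set E) := by
  classical
  letI := Module.compHom E (rE R K E)
  have hsmul : ∀ (c : R) (y : E), c • y = rE R K E c * y := fun _ _ => rfl
  have hx0 : x ≠ 0 := by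
    rintro rfl
    exact hx isAlgebraic_zero
  obtain ⟨n, b, hb, hgen⟩ := exists_generators (R := R) hx hfin
  have hk : ∀ i, ∃ k₀, ∀ k, k₀ ≤ k → x⁻¹ ^ k * b i ∈ CInt R K x⁻¹ :=
    fun i => fin_to_inf_ge hx0 (hb i)
  choose k₀ hk₀ using hk
  set n₀ := Finset.univ.sup k₀ with hn₀
  set G : Finset E := (Finset.univ ×ˢ Finset.range n₀).image
    (fun ik : Fin n × ℕ => x⁻¹ ^ ik.2 * b ik.1) with hG
  refine ⟨G, ?_⟩
  set S := glueN R K x ⊔ Submodule.span R (G : Set E) with hS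
  have hN1 : ∀ u ∈ CInt R K x, u ∈ S := fun u hu =>
    Submodule.mem_sup_left ⟨u, hu, 0, zero_mem _, by simp⟩
  have hN2 : ∀ u ∈ CInt R K x⁻¹, u ∈ S := fun u hu =>
    Submodule.mem_sup_left ⟨0, zero_mem _, u, hu, by simp⟩
  have hmon : ∀ (i : Fin n) (j k : ℕ), x⁻¹ ^ k * x ^ j * b i ∈ S := by
    intro i j k
    rcases le_or_gt k j with hkj | hkj
    · obtain ⟨d, rfl⟩ := Nat.exists_eq_add_of_le hkj
      have e : x⁻¹ ^ k * x ^ (k + d) * b i = x ^ d * b i := by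
        rw [pow_add, ← mul_assoc, ← mul_pow, inv_mul_cancel₀ hx0, one_pow, one_mul]
      rw [e]
      exact hN1 _ (mul_mem (pow_mem (self_mem_CInt x) d) (hb i))
    · obtain ⟨d, rfl⟩ := Nat.exists_eq_add_of_le hkj.le
      have e : x⁻¹ ^ (j + d) * x ^ j * b i = x⁻¹ ^ d * b i := by
        rw [pow_add, mul_comm (x⁻¹ ^ j), mul_assoc (x⁻¹ ^ d), ← mul_pow, inv_mul_cancel₀ hx0,
          one_pow, mul_one]
      rw [e]
      rcases le_or_gt n₀ d with hd | hd
      · exact hN2 _ (hk₀ i d ((Finset.le_sup (Finset.mem_univ i)).trans hd))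
      · apply Submodule.mem_sup_right
        apply Submodule.subset_span
        rw [hG, Finset.coe_image]
        exact ⟨(i, d), by simp [hd], rfl⟩
  have hpoly : ∀ (i : Fin n) (k : ℕ) (c : R[X]), x⁻¹ ^ k * evR R K x c * b i ∈ S := by
    intro i k c
    induction c using Polynomial.induction_on' with
    | add p q hp hq =>
      have e : x⁻¹ ^ k * evR R K x (p + q) * b i =
          x⁻¹ ^ k * evR R K x p * b i + x⁻¹ ^ k * evR R K x q * b i := by
        rw [map_add]; ring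
      rw [e]; exact S.add_mem hp hq
    | monomial j a =>
      have e : x⁻¹ ^ k * evR R K x (monomial j a) * b i = a • (x⁻¹ ^ k * x ^ j * b i) := by
        rw [hsmul, ← C_mul_X_pow_eq_monomial, map_mul, map_pow, evR_C, evR_X]; ring
      rw [e]; exact S.smul_mem a (hmon i j k)
  rintro z ⟨k, hz⟩
  obtain ⟨c, hc⟩ := hgen _ hz
  have e : z = ∑ i, x⁻¹ ^ k * evR R K x (c i) * b i := by
    have : z = x⁻¹ ^ k * (x ^ k * z) := by
      rw [← mul_assoc, ← mul_pow, inv_mul_cancel₀ hx0, one_pow, one_mul]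
    rw [this, hc, Finset.mul_sum]
    exact Finset.sum_congr rfl fun i _ => by ring
  rw [e]
  exact S.sum_mem fun i _ => hpoly i k (c i)

/-- **bounded torsion** of `H¹`. -/
theorem glue_bounded_torsion [CharZero K] {x : E} (hx : Transcendental K x)
    (hfin : FiniteDimensional K⟮x⟯ E) (ϖ : R) :
    ∃ m₀ : ℕ, ∀ z ∈ CMid R K x, ∀ n : ℕ,
      (∃ u ∈ CInt R K x, ∃ u' ∈ CInt R K x⁻¹, rE R K E ϖ ^ n * z = u + u') →
      ∃ u ∈ CInt R K x, ∃ u' ∈ CInt R K x⁻¹, rE R K E ϖ ^ m₀ * z = u + u' := by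
  classical
  letI := Module.compHom E (rE R K E)
  have hsmul : ∀ (c : R) (y : E), c • y = rE R K E c * y := fun _ _ => rfl
  obtain ⟨G, hG⟩ := glue_exists_fg (R := R) hx hfin
  set F := Submodule.span R (G : Set E) with hF
  haveI : IsNoetherian R F := isNoetherian_span_of_finite R G.finite_toSet
  let T : ℕ → Submodule R F := fun n =>
    ((glueN R K x).comap ((ϖ ^ n) • (LinearMap.id : E →ₗ[R] E))).comap F.subtype
  have hTmem : ∀ n (f : F), f ∈ T n ↔ rE R K E ϖ ^ n * (f : E) ∈ glueN R K x := by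
    intro n f
    simp only [T, Submodule.mem_comap, Submodule.subtype_apply, LinearMap.smul_apply,
      LinearMap.id_apply, hsmul, map_pow]
  have hmono : Monotone T := by
    apply monotone_nat_of_le_succ
    intro n f hf
    rw [hTmem] at hf ⊢
    have := (glueN R K x).smul_mem ϖ hf
    rw [hsmul] at this
    rw [pow_succ']
    rwa [mul_assoc]
  obtain ⟨m₀, hm₀⟩ := monotone_stabilizes_iff_noetherian.2 ‹IsNoetherian R F› ⟨T, hmono⟩
  refine ⟨m₀, ?_⟩
  intro z hz n hn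
  obtain ⟨ν, hν, f, hf, rfl⟩ := Submodule.mem_sup.1 (hG z hz)
  have h1 : rE R K E ϖ ^ n * f ∈ glueN R K x := by
    have h2 : rE R K E ϖ ^ n * (ν + f) ∈ glueN R K x := hn
    have h3 : rE R K E ϖ ^ n * ν ∈ glueN R K x := by
      have := (glueN R K x).smul_mem (ϖ ^ n) hν
      rwa [hsmul, map_pow] at this
    have := (glueN R K x).sub_mem h2 h3
    rwa [mul_add, add_sub_cancel_left] at this
  have h4 : (⟨f, hf⟩ : F) ∈ T (max n m₀) := hmono (le_max_left _ _) ((hTmem n ⟨f, hf⟩).2 h1)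
  have h5 : (⟨f, hf⟩ : F) ∈ T m₀ := by
    have := hm₀ (max n m₀) (le_max_right _ _)
    change T m₀ = T (max n m₀) at this
    rw [this]; exact h4
  have h6 := (hTmem m₀ ⟨f, hf⟩).1 h5
  have h7 : rE R K E ϖ ^ m₀ * ν ∈ glueN R K x := by
    have := (glueN R K x).smul_mem (ϖ ^ m₀) hν
    rwa [hsmul, map_pow] at this
  have := (glueN R K x).add_mem h7 h6
  rw [← mul_add] at this
  exact this


theorem glue {ϖ : R} [CharZero K] (hϖ : Irreducible ϖ) {x : E} (hx : Transcendental K x)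
    (hfin : FiniteDimensional K⟮x⟯ E)
    (hconst : ∀ y : E, IsAlgebraic K y → y ∈ (algebraMap K E).range) (e y₁ y₂ : E)
    (h₁ : y₁ ∈ CInt R K x) (h₂ : y₂ ∈ CInt R K x⁻¹) (c₁ : CongA K ϖ x y₁ e)
    (c₂ : CongA K ϖ x y₂ e) (he : CongA K ϖ x (e ^ 2) e) :
    ∃ r : R, CongA K ϖ x (rE R K E r) e := by
  have hx0 : x ≠ 0 := by
    rintro rfl
    exact hx isAlgebraic_zero
  have hxi : Transcendental K x⁻¹ := glue_transcendental_inv hx
  set π : E := rE R K E ϖ with hπ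
  -- membership in `O_E`
  have hO1 : InO K ϖ x y₁ := InO.of_mem_CInt hϖ h₁
  have hO2 : InO K ϖ x y₂ := (InO_inv_iff hϖ hx0).1 (InO.of_mem_CInt hϖ h₂)
  obtain ⟨η₁, hη₁, e₁⟩ := c₁
  obtain ⟨η₂, hη₂, e₂⟩ := c₂
  obtain ⟨η₀, hη₀, e₀⟩ := he
  have hπO : InO K ϖ x π := InO.of_mem_CInt hϖ (rE_mem_CInt x ϖ)
  have hOe : InO K ϖ x e := by
    have : e = y₁ - π * η₁ := by rw [← e₁]; ring
    rw [this]; exact hO1.sub hϖ (hπO.mul hϖ hη₁)
  -- `y₁² - y₁ ∈ ϖ C_x`
  have hc1 : ∃ c ∈ CInt R K x, y₁ ^ 2 - y₁ = π * c := by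
    refine ⟨η₁ * (y₁ + e) + η₀ - η₁, ?_, ?_⟩
    · apply mem_CInt_of_mul_of_InO hx hϖ
      · have : rE R K E ϖ * (η₁ * (y₁ + e) + η₀ - η₁) = y₁ ^ 2 - y₁ := by
          linear_combination (-(y₁ + e) + 1) * e₁ - e₀
        rw [this]
        exact sub_mem (pow_mem h₁ 2) h₁
      · exact ((hη₁.mul hϖ (hO1.add hϖ hOe)).add hϖ hη₀).sub hϖ hη₁
    · linear_combination ((y₁ + e) - 1) * e₁ + e₀
  have hc2 : ∃ c ∈ CInt R K x⁻¹, y₂ ^ 2 - y₂ = π * c := by
    refine ⟨η₂ * (y₂ + e) + η₀ - η₂, ?_, ?_⟩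
    · apply mem_CInt_of_mul_of_InO hxi hϖ
      · have : rE R K E ϖ * (η₂ * (y₂ + e) + η₀ - η₂) = y₂ ^ 2 - y₂ := by
          linear_combination (-(y₂ + e) + 1) * e₂ - e₀
        rw [this]
        exact sub_mem (pow_mem h₂ 2) h₂
      · exact (InO_inv_iff hϖ hx0).2
          (((hη₂.mul hϖ (hO2.add hϖ hOe)).add hϖ hη₀).sub hϖ hη₂)
    · linear_combination ((y₂ + e) - 1) * e₂ + e₀
  obtain ⟨c₁, hc₁, ec₁⟩ := hc1
  obtain ⟨c₂, hc₂, ec₂⟩ := hc2
  obtain ⟨m₀, hm₀⟩ := glue_bounded_torsion (R := R) hx hfin ϖ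
  -- lift the idempotents modulo `ϖ ^ (m₀ + 1)`
  obtain ⟨a₁, c₁', d₁, ha₁, hd₁⟩ := glue_idem_lift (S := CInt R K x)
    ⟨π, rE_mem_CInt x ϖ⟩ ⟨y₁, h₁⟩ ⟨c₁, hc₁⟩ (Subtype.ext ec₁) m₀
  obtain ⟨a₂, c₂', d₂, ha₂, hd₂⟩ := glue_idem_lift (S := CInt R K x⁻¹)
    ⟨π, rE_mem_CInt x⁻¹ ϖ⟩ ⟨y₂, h₂⟩ ⟨c₂, hc₂⟩ (Subtype.ext ec₂) m₀
  have ha₁' : (a₁ : E) ^ 2 - a₁ = π ^ (m₀ + 1) * c₁' := congrArg Subtype.val ha₁
  have hd₁' : (a₁ : E) - y₁ = π * d₁ := congrArg Subtype.val hd₁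
  have ha₂' : (a₂ : E) ^ 2 - a₂ = π ^ (m₀ + 1) * c₂' := congrArg Subtype.val ha₂
  have hd₂' : (a₂ : E) - y₂ = π * d₂ := congrArg Subtype.val hd₂
  have hW1 : ∀ y ∈ CInt R K x, y ∈ CMid R K x := fun y hy => CInt_le_CMid x hy
  have hW2 : ∀ y ∈ CInt R K x⁻¹, y ∈ CMid R K x := fun y hy => CInt_inv_le_CMid hx0 hy
  have hOd₁ : InO K ϖ x (d₁ : E) := InO.of_mem_CInt hϖ d₁.2
  have hOd₂ : InO K ϖ x (d₂ : E) := (InO_inv_iff hϖ hx0).1 (InO.of_mem_CInt hϖ d₂.2)
  -- the difference is divisible by `ϖ` in `C_mid`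
  have hdiff : (a₁ : E) - a₂ = π * ((d₁ : E) + η₁ - η₂ - d₂) := by
    linear_combination hd₁' - hd₂' + e₁ - e₂
  have hdW : (d₁ : E) + η₁ - η₂ - d₂ ∈ CMid R K x := by
    apply mem_CMid_of_mul_of_InO hx hϖ
    · rw [← hπ, ← hdiff]
      exact sub_mem (hW1 _ a₁.2) (hW2 _ a₂.2)
    · exact ((hOd₁.add hϖ hη₁).sub hϖ hη₂).sub hϖ hOd₂
  obtain ⟨w, hw⟩ := glue_idem_unique (S := CMid R K x) ⟨π, hW1 _ (rE_mem_CInt x ϖ)⟩
    ⟨a₁, hW1 _ a₁.2⟩ ⟨a₂, hW2 _ a₂.2⟩ ⟨c₁', hW1 _ c₁'.2⟩ ⟨c₂', hW2 _ c₂'.2⟩ ⟨_, hdW⟩ (m₀ + 1)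
    (Subtype.ext ha₁') (Subtype.ext ha₂') (Subtype.ext hdiff)
  have hw' : (a₁ : E) - a₂ = π ^ (m₀ + 1) * w := congrArg Subtype.val hw
  obtain ⟨ν, hν, ν', hν', hνν⟩ := hm₀ w w.2 (m₀ + 1)
    ⟨a₁, a₁.2, -a₂, neg_mem a₂.2, by rw [← hπ, ← hw']; ring⟩
  rw [← hπ] at hνν
  have hρ : (a₁ : E) - π * ν = a₂ + π * ν' := by
    have : (a₁ : E) - a₂ = π * (ν + ν') := by rw [hw', pow_succ', mul_assoc, hνν]
    linear_combination this
  obtain ⟨r, hr⟩ := glue_inter hx hconst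
    (sub_mem a₁.2 (mul_mem (rE_mem_CInt x ϖ) hν))
    (by rw [← hπ, hρ]; exact add_mem a₂.2 (mul_mem (rE_mem_CInt x⁻¹ ϖ) hν'))
  refine ⟨r, (d₁ : E) + η₁ - ν, (hOd₁.add hϖ hη₁).sub hϖ (InO.of_mem_CInt hϖ hν), ?_⟩
  rw [← hr, ← hπ]
  linear_combination hd₁' + e₁

end Fermat.Agent.S18
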