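import Fermat.Agent.S18.AT.InO

set_option autoImplicit false
set_option linter.unusedSectionVars false
set_option linter.style.haveILetI false

/-!
# S18 / AT : passing from the chart `x` to the chart `x⁻¹`
-/

noncomputable section

namespace Fermat.Agent.S18

open Polynomial IntermediateField Module

variable {R K E : Type} [CommRing R] [IsDomain R] [IsDiscreteValuationRing R] [Field K]
  [Algebra R K] [Field E] [Algebra K E]

theorem evR_mul_inv_pow {x : E} (hx : x ≠ 0) (a : R[X]) {N : ℕ} (hN : a.natDegree ≤ N) :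
    evR R K x a * x⁻¹ ^ N = evR R K x⁻¹ (reflect N a) := by
  letI := invertibleOfNonzero hx
  have h := eval₂_reflect_mul_pow (rE R K E) x N a hN
  rw [invOf_eq_inv] at h
  show eval₂ _ x a * x⁻¹ ^ N = eval₂ _ x⁻¹ (reflect N a)
  rw [← h, mul_assoc, ← mul_pow, mul_inv_cancel₀ hx, one_pow, mul_one]

/-- criterion for integrality: a monic polynomial over `E` with coefficients in `R[t]`. -/
theorem mem_CInt_of_lifts {t y : E} (P : E[X]) (hP : P.Monic)
    (hl : ∀ n, P.coeff n ∈ Set.range (evR R K t)) (hy : P.eval y = 0) : y ∈ CInt R K t := by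
  have hl' : P ∈ lifts (evR R K t) := (lifts_iff_coeff_lifts P).2 hl
  obtain ⟨q, hq, -, hqm⟩ := lifts_and_natDegree_eq_and_monic hl' hP
  refine ⟨q, hqm, ?_⟩
  rw [← eval_map, hq, hy]

/-- **shift**: `b ∈ C_x ⟹ x⁻ᵏ b ∈ C_{1/x}` for `k ≫ 0`. -/
theorem fin_to_inf_ge {x b : E} (hx : x ≠ 0) (hb : b ∈ CInt R K x) :
    ∃ k₀, ∀ k, k₀ ≤ k → x⁻¹ ^ k * b ∈ CInt R K x⁻¹ := by
  obtain ⟨p, hpm, hp⟩ := hb
  refine ⟨p.support.sup fun j => (p.coeff j).natDegree, ?_⟩
  intro k hk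
  set P : E[X] := p.map (evR R K x) with hP
  have hPm : P.Monic := hpm.map _
  have hPdeg : P.natDegree = p.natDegree := hpm.natDegree_map _
  refine mem_CInt_of_lifts (P.scaleRoots (x⁻¹ ^ k)) ((monic_scaleRoots_iff _).2 hPm) ?_ ?_
  · intro j
    rw [coeff_scaleRoots, hPdeg, hP, coeff_map, ← pow_mul]
    have hdeg : (p.coeff j).natDegree ≤ k * (p.natDegree - j) := by
      rcases lt_trichotomy j p.natDegree with hj | hj | hj
      · by_cases h0 : p.coeff j = 0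
        · simp [h0]
        · have h1 : (p.coeff j).natDegree ≤ p.support.sup fun j => (p.coeff j).natDegree :=
            Finset.le_sup (f := fun j => (p.coeff j).natDegree) (mem_support_iff.2 h0)
          have h2 : 1 ≤ p.natDegree - j := by omega
          calc (p.coeff j).natDegree ≤ k := h1.trans hk
            _ = k * 1 := (mul_one k).symm
            _ ≤ k * (p.natDegree - j) := Nat.mul_le_mul_left k h2
      · rw [hj, hpm.coeff_natDegree]; simp
      · rw [coeff_eq_zero_of_natDegree_lt hj]; simp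
    exact ⟨_, (evR_mul_inv_pow hx _ hdeg).symm⟩
  · have h0 : P.eval b = 0 := by rw [hP, eval_map]; exact hp
    rw [scaleRoots_eval_mul, h0, mul_zero]

theorem fin_to_inf {x y : E} (hx : x ≠ 0) (hy : y ∈ CInt R K x) :
    ∃ k, x⁻¹ ^ k * y ∈ CInt R K x⁻¹ := by
  obtain ⟨k₀, h⟩ := fin_to_inf_ge hx hy
  exact ⟨k₀, h k₀ le_rfl⟩

theorem not_C_dvd_reflect {ϖ : R} (hϖ : Irreducible ϖ) {r : R[X]} (hr : ¬ C ϖ ∣ r) (N : ℕ) :
    ¬ C ϖ ∣ reflect N r := by
  rw [not_C_dvd_iff hϖ] at hr ⊢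
  obtain ⟨i, hi⟩ := hr
  refine ⟨revAt N i, ?_⟩
  rw [coeff_reflect, revAt_invol]
  exact hi

theorem InO.inv {ϖ : R} (hϖ : Irreducible ϖ) {x y : E} (hx : x ≠ 0) (hy : InO K ϖ x y) :
    InO K ϖ x⁻¹ y := by
  obtain ⟨r, hr, h⟩ := hy
  obtain ⟨k₀, hk⟩ := fin_to_inf_ge hx h
  set N := max k₀ r.natDegree
  refine ⟨reflect N r, not_C_dvd_reflect hϖ hr N, ?_⟩
  rw [← evR_mul_inv_pow hx r (le_max_right _ _)]
  have := hk N (le_max_left _ _)
  have e : evR R K x r * x⁻¹ ^ N * y = x⁻¹ ^ N * (evR R K x r * y) := by ring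
  rw [e]
  exact this

theorem InO_inv_iff {ϖ : R} (hϖ : Irreducible ϖ) {x y : E} (hx : x ≠ 0) :
    InO K ϖ x⁻¹ y ↔ InO K ϖ x y := by
  constructor
  · intro h
    have := h.inv hϖ (inv_ne_zero hx)
    rwa [inv_inv] at this
  · exact fun h => h.inv hϖ hx

theorem CongA_inv_iff {ϖ : R} (hϖ : Irreducible ϖ) {x y z : E} (hx : x ≠ 0) :
    CongA K ϖ x⁻¹ y z ↔ CongA K ϖ x y z := by
  constructor
  · rintro ⟨η, hη, h⟩
    exact ⟨η, (InO_inv_iff hϖ hx).1 hη, h⟩
  · rintro ⟨η, hη, h⟩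
    exact ⟨η, (InO_inv_iff hϖ hx).2 hη, h⟩

end Fermat.Agent.S18
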