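import Mathlib

set_option autoImplicit false

/-! # S18 / AT / Val : small API for `ValuationSubring.nonunits` -/

namespace Fermat.Agent.S18

variable {Ω : Type*} [Field Ω] (O : ValuationSubring Ω)

theorem mem_of_mem_nonunits {a : Ω} (ha : a ∈ O.nonunits) : a ∈ O :=
  ValuationSubring.nonunits_subset ha

theorem mul_mem_nonunits {a b : Ω} (ha : a ∈ O) (hb : b ∈ O.nonunits) : a * b ∈ O.nonunits := by
  rw [ValuationSubring.mem_nonunits_iff] at hb ⊢
  rw [map_mul]
  calc O.valuation a * O.valuation b ≤ 1 * O.valuation b :=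
        mul_le_mul_left ((O.valuation_le_one_iff a).2 ha) _
    _ = O.valuation b := one_mul _
    _ < 1 := hb

theorem mul_mem_nonunits' {a b : Ω} (ha : a ∈ O.nonunits) (hb : b ∈ O) : a * b ∈ O.nonunits := by
  rw [mul_comm]; exact mul_mem_nonunits O hb ha

theorem add_mem_nonunits {a b : Ω} (ha : a ∈ O.nonunits) (hb : b ∈ O.nonunits) :
    a + b ∈ O.nonunits := by
  rw [ValuationSubring.mem_nonunits_iff] at ha hb ⊢
  exact lt_of_le_of_lt (O.valuation.map_add a b) (max_lt ha hb)

theorem neg_mem_nonunits {a : Ω} (ha : a ∈ O.nonunits) : -a ∈ O.nonunits := by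
  rw [ValuationSubring.mem_nonunits_iff] at ha ⊢
  rwa [Valuation.map_neg]

theorem sub_mem_nonunits {a b : Ω} (ha : a ∈ O.nonunits) (hb : b ∈ O.nonunits) :
    a - b ∈ O.nonunits := by
  rw [sub_eq_add_neg]; exact add_mem_nonunits O ha (neg_mem_nonunits O hb)

theorem zero_mem_nonunits : (0 : Ω) ∈ O.nonunits := by
  rw [ValuationSubring.mem_nonunits_iff, map_zero]; exact zero_lt_one

theorem one_notMem_nonunits : (1 : Ω) ∉ O.nonunits := by
  rw [ValuationSubring.mem_nonunits_iff, map_one]; exact lt_irrefl _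

theorem sum_mem_nonunits {ι : Type*} (s : Finset ι) (f : ι → Ω) (h : ∀ i ∈ s, f i ∈ O.nonunits) :
    ∑ i ∈ s, f i ∈ O.nonunits := by
  classical
  induction s using Finset.induction_on with
  | empty => simp [zero_mem_nonunits O]
  | insert a s ha ih =>
    rw [Finset.sum_insert ha]
    exact add_mem_nonunits O (h a (Finset.mem_insert_self _ _))
      (ih fun i hi => h i (Finset.mem_insert_of_mem hi))

/-- an element of `O` which is not a nonunit has its inverse in `O`. -/
theorem inv_mem_of_notMem_nonunits {a : Ω} (ha : a ∈ O) (ha' : a ∉ O.nonunits) : a⁻¹ ∈ O := by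
  rw [ValuationSubring.mem_nonunits_iff, not_lt] at ha'
  have h1 : O.valuation a = 1 := le_antisymm ((O.valuation_le_one_iff a).2 ha) ha'
  rw [← O.valuation_le_one_iff, map_inv₀, h1, inv_one]

/-- valuation rings are integrally closed (ring hom form). -/
theorem mem_of_isIntegralElem {A : Type*} [CommRing A] (f : A →+* Ω) (hf : ∀ a, f a ∈ O) {y : Ω}
    (hy : f.IsIntegralElem y) : y ∈ O := by
  obtain ⟨P, hP, hPy⟩ := hy
  have h1 : IsIntegral O y := by
    let g : A →+* O := f.codRestrict O.toSubring hf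
    refine ⟨P.map g, hP.map g, ?_⟩
    rw [Polynomial.eval₂_map]
    have : (algebraMap O Ω).comp g = f := by
      ext a; rfl
    rw [this]; exact hPy
  obtain ⟨z, hz⟩ := (IsIntegrallyClosed.isIntegral_iff (R := O) (K := Ω)).1 h1
  rw [← hz]; exact z.2

theorem mem_of_pow_mem {a : Ω} {n : ℕ} (hn : n ≠ 0) (ha : a ^ n ∈ O) : a ∈ O := by
  rw [← O.valuation_le_one_iff] at ha ⊢
  rw [map_pow] at ha
  exact (pow_le_one_iff hn).1 ha

end Fermat.Agent.S18
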