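import Fermat.Agent.S18.AT.Defs
import Fermat.Agent.S18.AT.Val

set_option autoImplicit false
set_option linter.unusedSectionVars false
set_option linter.unusedVariables false

/-!
# S18 / AT / InvChart : the chart at infinity, `t = x⁻¹`, chart hypotheses   (task AT-InvChart)
-/

noncomputable section

namespace Fermat.Agent.S18

open Polynomial IntermediateField

variable {R K E : Type} [CommRing R] [IsDomain R] [IsDiscreteValuationRing R] [Field K]
  [CharZero K] [Algebra R K] [IsFractionRing R K] [Field E] [Algebra K E]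

/-! ### AT-InvChart -/

theorem emb_inv (𝒱 : VData R K) {x : E} (hx : x ≠ 0) (ιx : 𝒱.Ω) :
    Emb 𝒱 x⁻¹ ιx⁻¹ = Emb 𝒱 x ιx := by
  ext φ
  simp only [Emb, Set.mem_ofPred_eq, map_inv₀, inv_inj]

theorem invChart_adjoin_inv (x : E) : K⟮x⁻¹⟯ = K⟮x⟯ := by
  apply le_antisymm
  · rw [adjoin_simple_le_iff]
    exact inv_mem (mem_adjoin_simple_self K x)
  · rw [adjoin_simple_le_iff]
    have := inv_mem (mem_adjoin_simple_self K x⁻¹)
    rwa [inv_inv] at this

theorem invChart_order_inv {𝕜 : Type} [Field 𝕜] (y : LaurentSeries 𝕜) :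
    (y⁻¹).order = - y.order := by
  by_cases hy : y = 0
  · simp [hy]
  · have h := HahnSeries.order_mul hy (inv_ne_zero hy)
    rw [mul_inv_cancel₀ hy, HahnSeries.order_one] at h
    omega

/-- `trans`: clear.  `fin`: `K⟮x⁻¹⟯ = K⟮x⟯` as intermediate fields, transport.  `gauss`: `ιx` is a unit of
`O` (`Q = X` in `IsGauss`), and `ιx ^ k * Q(ιx⁻¹) = (reflect k Q)(ιx)`.  `dred`: `emb_inv`. -/
theorem isChart_inv (𝒱 : VData R K) {x : E} {ιx : 𝒱.Ω} (h : IsChart 𝒱 x ιx) :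
    IsChart 𝒱 x⁻¹ ιx⁻¹ := by
  have hx0 : x ≠ 0 := by
    rintro rfl
    exact h.trans isAlgebraic_zero
  have hι : ιx ∉ 𝒱.O.nonunits := by
    intro hmem
    have h1 := h.gauss.2 X (by simpa using hmem) 1
    exact h1 (by simp)
  have hι0 : ιx ≠ 0 := by
    rintro rfl
    exact hι (zero_mem_nonunits _)
  refine ⟨?_, ?_, ⟨inv_mem_of_notMem_nonunits _ h.gauss.1 hι, ?_⟩, ?_⟩
  · intro halg
    exact h.trans (by simpa using halg.inv)
  · rw [invChart_adjoin_inv]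
    exact h.fin
  · intro Q hQ i
    let _ : Invertible ιx := invertibleOfNonzero hι0
    have h1 := eval₂_reflect_mul_pow (𝒱.ιK.comp (algebraMap R K)) ιx Q.natDegree
      (reflect Q.natDegree Q) (by simpa using natDegree_reflect_le (N := Q.natDegree) (p := Q))
    rw [reflect_reflect, invOf_eq_inv] at h1
    have h2 : eval₂ (𝒱.ιK.comp (algebraMap R K)) ιx (reflect Q.natDegree Q) ∈ 𝒱.O.nonunits := by
      rw [← h1]
      exact mul_mem_nonunits' _ hQ (𝒱.O.pow_mem h.gauss.1 _)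
    have h3 := h.gauss.2 _ h2 (revAt Q.natDegree i)
    rwa [coeff_reflect, revAt_invol] at h3
  · rw [DistinctRed, emb_inv 𝒱 hx0]
    exact h.dred

theorem landsIn_inv (𝕜 : Type) [Field 𝕜] (jK : K →+* 𝕜) {x : E} {ιs : LaurentSeries 𝕜}
    (h : LandsIn 𝕜 jK x ιs) : LandsIn 𝕜 jK x⁻¹ ιs⁻¹ := by
  intro φ hK hx y
  refine h φ hK ?_ y
  rw [map_inv₀, map_inv₀, inv_inj] at hx
  exact hx

/-- for `c' ≠ 0`, `c c' ≠ 1`: chart `ιs` at `1/c'` for `x`; `ιs⁻¹ - c' = - c' (ιs - 1/c') / ιs` has order `1`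
(`ιs` has order `0`: it is `C (1/c') +` order `1`). -/
theorem horUnram_inv (𝕜 : Type) [Field 𝕜] (jK : K →+* 𝕜) {x : E} (c : R)
    (h : HorUnram 𝕜 jK x ((X - C 0) * (X - C c))) :
    HorUnram 𝕜 jK x⁻¹ ((X - C 0) * (C c * X - 1)) := by
  intro c' hc'
  simp only [Polynomial.map_mul, Polynomial.map_sub, Polynomial.map_X, Polynomial.map_C, map_zero,
    Polynomial.map_one, eval_mul, eval_sub, eval_X, eval_C, eval_one, sub_zero, mul_ne_zero_iff]
    at hc'
  obtain ⟨hc0, hc1⟩ := hc'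
  obtain ⟨ιs, hord, hl⟩ := h c'⁻¹ (by
    simp only [Polynomial.map_mul, Polynomial.map_sub, Polynomial.map_X, Polynomial.map_C, map_zero,
      eval_mul, eval_sub, eval_X, eval_C, sub_zero, mul_ne_zero_iff]
    refine ⟨inv_ne_zero hc0, fun h0 => hc1 ?_⟩
    rw [sub_eq_zero] at h0
    rw [← h0, inv_mul_cancel₀ hc0, sub_self])
  refine ⟨ιs⁻¹, ?_, landsIn_inv 𝕜 jK hl⟩
  have hδ0 : ιs - HahnSeries.C c'⁻¹ ≠ 0 := by
    intro h0
    rw [h0, HahnSeries.order_zero] at hord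
    exact zero_ne_one hord
  have hcoeff : ιs.coeff 0 = c'⁻¹ := by
    have h1 : (ιs - HahnSeries.C c'⁻¹).coeff 0 = 0 :=
      HahnSeries.coeff_eq_zero_of_lt_order (by rw [hord]; exact zero_lt_one)
    rw [HahnSeries.coeff_sub, HahnSeries.C_apply, HahnSeries.coeff_single_same, sub_eq_zero] at h1
    exact h1
  have hιs0 : ιs ≠ 0 := by
    intro h0
    rw [h0, HahnSeries.coeff_zero] at hcoeff
    exact inv_ne_zero hc0 hcoeff.symm
  have hord0 : ιs.order = 0 := by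
    apply le_antisymm
    · exact HahnSeries.order_le_of_coeff_ne_zero (by rw [hcoeff]; exact inv_ne_zero hc0)
    · have h1 := HahnSeries.min_order_le_order_add (x := HahnSeries.C c'⁻¹)
        (y := ιs - HahnSeries.C c'⁻¹) (by rw [add_sub_cancel]; exact hιs0)
      rw [add_sub_cancel, HahnSeries.order_C, hord] at h1
      simpa using h1
  have hC0 : (HahnSeries.C c' : LaurentSeries 𝕜) ≠ 0 := by
    rw [Ne, map_eq_zero]; exact hc0
  have hCC : (HahnSeries.C c' : LaurentSeries 𝕜) * HahnSeries.C c'⁻¹ = 1 := by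
    rw [← map_mul, mul_inv_cancel₀ hc0, map_one]
  have key : ιs⁻¹ - HahnSeries.C c' = -(HahnSeries.C c' * (ιs - HahnSeries.C c'⁻¹) * ιs⁻¹) := by
    have h1 : ιs * ιs⁻¹ = 1 := mul_inv_cancel₀ hιs0
    linear_combination (HahnSeries.C c') * h1 - ιs⁻¹ * hCC
  rw [key, HahnSeries.order_neg, HahnSeries.order_mul (mul_ne_zero hC0 hδ0) (inv_ne_zero hιs0),
    HahnSeries.order_mul hC0 hδ0, HahnSeries.order_C, hord, invChart_order_inv, hord0]
  norm_num

theorem hinf_inv (𝕜 : Type) [Field 𝕜] (jK : K →+* 𝕜) {x : E} {n : ℕ}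
    (h : ∃ ιs : LaurentSeries 𝕜, ιs.order = -(n : ℤ) ∧ LandsIn 𝕜 jK x ιs) :
    ∃ ιs : LaurentSeries 𝕜, (ιs - HahnSeries.C (jK (algebraMap R K (0 : R)))).order = (n : ℤ) ∧
      LandsIn 𝕜 jK x⁻¹ ιs := by
  obtain ⟨ιs, hord, hl⟩ := h
  refine ⟨ιs⁻¹, ?_, landsIn_inv 𝕜 jK hl⟩
  rw [map_zero, map_zero, map_zero, sub_zero, invChart_order_inv, hord, neg_neg]

end Fermat.Agent.S18
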