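import Fermat.Agent.S18.AT.Defs
import Fermat.Agent.S18.H.Roots

set_option autoImplicit false

/-!
# S18 / AT / HorRoot : Abhyankar's lemma, horizontal part   (task AT-HorRoot)

`E / K(t)` unramified (in the sense of `HorUnram`) outside `t = c₀` and the zeros of `W₁`, and at
`t = c₀` there is a chart of order `n`.  Then `E' = E(γ)`, `γ ^ n = t - c₀`, is unramified over `K(γ)`
outside the zeros of `W₁(γ ^ n + c₀)`.

SKETCH.  Let `c'` with `W₁(c'^n + c₀) ≠ 0`, `a := c'^n + jK c₀`.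
* `c' ≠ 0`: `((X - C c₀) * W₁)(a) = c'^n W₁(a) ≠ 0`, so we get `ιs`, `ord(ιs - a) = 1`, `LandsIn t ιs`.
  `z := ιs - C (jK c₀) = C (c'^n) + (ιs - C a)` has order `0`; `H.exists_pow_eq` gives `w`, `w ^ n = z`;
  the constant coefficient `w₀` of `w` satisfies `w₀ ^ n = c' ^ n`; multiply `w` by the constant
  `c' / w₀` (an `n`-th root of unity) to get `ιs'` with `ιs' ^ n = z` and constant term `c'`.
  `ord(ιs' - C c') = 1`: `ιs'^n - c'^n = (ιs' - c') * (∑ ιs'^i c'^(n-1-i))`, the second factor has constant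
  term `n c'^(n-1) ≠ 0`, i.e. order `0`; orders add.
* `c' = 0`: use `h₀`: `z := ιs - C (jK c₀)` has order `n`; `w ^ n = z` has order `1` (`n * ord w = n`).
* `LandsIn 𝕜 jK γ ιs'`: for `φ' : E' → Λ̄` with `φ' γ = ιs'`, `φ'.comp (algebraMap E E')` satisfies the
  hypotheses of `LandsIn 𝕜 jK t ιs` (`φ' t = φ' γ ^ n + c₀ = ιs`), so `φ'(E) ⊆ Λ`; `φ' γ ∈ Λ`;
  `E⟮γ⟯ = ⊤` so every `y : E'` is in `E⟮γ⟯`: `IntermediateField.adjoin_induction` (the range of
  `algebraMap Λ Λ̄` is a subfield).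
-/

noncomputable section

namespace Fermat.Agent.S18

open Polynomial IntermediateField

namespace HorRoot

/-- the order of `s^m * T`, `T(0) ≠ 0`. -/
theorem order_X_pow_mul {𝕜 : Type} [Field 𝕜] (m : ℕ) (T : PowerSeries 𝕜)
    (hT : PowerSeries.constantCoeff (R := 𝕜) T ≠ 0) :
    (HahnSeries.ofPowerSeries ℤ 𝕜 (PowerSeries.X ^ m * T)).order = m := by
  have hT0 : HahnSeries.ofPowerSeries ℤ 𝕜 T ≠ 0 := by
    intro h
    have : T = 0 := HahnSeries.ofPowerSeries_injective (by rw [h, map_zero])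
    rw [this, map_zero] at hT
    exact hT rfl
  have h0 : (HahnSeries.ofPowerSeries ℤ 𝕜 T).order = 0 := by
    apply le_antisymm
    · apply HahnSeries.order_le_of_coeff_ne_zero
      have := HahnSeries.ofPowerSeries_apply_coeff (Γ := ℤ) T 0
      rw [Nat.cast_zero] at this
      rw [this, PowerSeries.coeff_zero_eq_constantCoeff_apply]
      exact hT
    · rw [HahnSeries.le_order_iff_forall hT0]
      intro j hj
      rw [HahnSeries.ofPowerSeries_apply]
      refine HahnSeries.embDomain_of_notMem_range ?_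
      rintro ⟨m, rfl⟩
      exact absurd hj (not_lt.mpr (Int.natCast_nonneg m))
  rw [map_mul, map_pow, HahnSeries.ofPowerSeries_X, HahnSeries.single_pow, one_pow,
    HahnSeries.order_mul (by simp) hT0, h0, HahnSeries.order_single one_ne_zero]
  simp

/-- a series of order `m ≥ 0` is `s^m * T`, `T(0) ≠ 0`. -/
theorem exists_eq_X_pow_mul {𝕜 : Type} [Field 𝕜] (m : ℕ) (y : LaurentSeries 𝕜) (hy0 : y ≠ 0)
    (hy : y.order = m) :
    ∃ T : PowerSeries 𝕜, PowerSeries.constantCoeff (R := 𝕜) T ≠ 0 ∧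
      y = HahnSeries.ofPowerSeries ℤ 𝕜 (PowerSeries.X ^ m * T) := by
  refine ⟨y.powerSeriesPart, ?_, ?_⟩
  · rw [← PowerSeries.coeff_zero_eq_constantCoeff_apply, LaurentSeries.powerSeriesPart_coeff]
    simpa using HahnSeries.leadingCoeff_ne_zero.2 hy0
  · rw [map_mul, map_pow, HahnSeries.ofPowerSeries_X, HahnSeries.single_pow, one_pow]
    conv_lhs => rw [← LaurentSeries.single_order_mul_powerSeriesPart y, hy]
    simp

/-- `n`-th root of `c'^n + δ`, `ord δ = 1`, `c' ≠ 0`. -/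
theorem exists_root_near {𝕜 : Type} [Field 𝕜] [CharZero 𝕜] {n : ℕ} (hn : n ≠ 0) (c' : 𝕜)
    (hc' : c' ≠ 0) (δ : LaurentSeries 𝕜) (hδ : δ.order = 1) :
    ∃ y : LaurentSeries 𝕜, y ^ n = HahnSeries.C (c' ^ n) + δ ∧ (y - HahnSeries.C c').order = 1 := by
  have hδ0 : δ ≠ 0 := by
    rintro rfl
    rw [HahnSeries.order_zero] at hδ
    exact zero_ne_one hδ
  obtain ⟨D, hD0, hD⟩ := exists_eq_X_pow_mul 1 δ hδ0 (by rw [hδ]; rfl)
  rw [pow_one] at hD
  obtain ⟨T, hT, hT0⟩ := H.exists_root_powerSeries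
    (X ^ n - C (PowerSeries.C (c' ^ n) + PowerSeries.X * D)) c'
    (by simp)
    (by
      simp only [Polynomial.map_sub, Polynomial.map_pow, map_X, map_C, derivative_sub,
        derivative_C, derivative_X_pow, sub_zero, eval_mul, eval_pow, eval_X, eval_C]
      exact mul_ne_zero (Nat.cast_ne_zero.2 hn) (pow_ne_zero _ hc'))
  have hT' : T ^ n = PowerSeries.C (c' ^ n) + PowerSeries.X * D := by
    simpa [sub_eq_zero] using hT
  refine ⟨HahnSeries.ofPowerSeries ℤ 𝕜 T, ?_, ?_⟩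
  · rw [← map_pow, hT', map_add, HahnSeries.ofPowerSeries_C, hD]
  · have hdvd : PowerSeries.X ∣ T - PowerSeries.C c' := by
      rw [PowerSeries.X_dvd_iff, map_sub, hT0, PowerSeries.constantCoeff_C, sub_self]
    obtain ⟨T₁, hT₁⟩ := hdvd
    have hgeom := Commute.mul_geom_sum₂ (Commute.all T (PowerSeries.C c')) n
    rw [hT₁, hT', map_pow, add_sub_cancel_left, mul_assoc] at hgeom
    have h2 := mul_left_cancel₀ PowerSeries.X_ne_zero hgeom
    have hT₁0 : PowerSeries.constantCoeff (R := 𝕜) T₁ ≠ 0 := by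
      intro h
      apply hD0
      rw [← h2, map_mul, h, zero_mul]
    have := order_X_pow_mul 1 T₁ hT₁0
    rw [pow_one, ← hT₁, map_sub, HahnSeries.ofPowerSeries_C] at this
    rw [this]
    rfl

end HorRoot

variable {R K E E' : Type} [CommRing R] [IsDomain R] [Field K]
  [CharZero K] [Algebra R K] [IsFractionRing R K] [Field E] [Algebra K E] [Field E'] [Algebra K E']
  [Algebra E E'] [IsScalarTower K E E']

namespace HorRoot

omit [IsDomain R] [CharZero K] [IsFractionRing R K] in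
/-- the `LandsIn` part. -/
theorem landsIn_root (𝕜 : Type) [Field 𝕜] (jK : K →+* 𝕜) {t : E}
    {c₀ : R} {n : ℕ} {γ : E'} (hγ : IsRootExt K t c₀ n γ) {ιs ιs' : LaurentSeries 𝕜}
    (h : LandsIn 𝕜 jK t ιs) (hpow : ιs' ^ n = ιs - HahnSeries.C (jK (algebraMap R K c₀))) :
    LandsIn 𝕜 jK γ ιs' := by
  intro φ' hφ'K hφ'γ
  have h1 := h (φ'.comp (algebraMap E E'))
    (fun a => by
      rw [RingHom.comp_apply, ← IsScalarTower.algebraMap_apply, hφ'K])
    (by
      have e1 : algebraMap E E' t = γ ^ n + algebraMap K E' (algebraMap R K c₀) := by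
        rw [hγ.pow_eq, map_sub, rE, RingHom.comp_apply, ← IsScalarTower.algebraMap_apply K E E',
          sub_add_cancel]
      rw [RingHom.comp_apply, e1, map_add, map_pow, hφ'γ, hφ'K, ← map_pow, hpow, ← map_add,
        sub_add_cancel])
  intro y
  have hy : y ∈ E⟮γ⟯ := by rw [hγ.adjoin_eq]; exact IntermediateField.mem_top
  have key : φ' y ∈ (algebraMap (LaurentSeries 𝕜) (AlgebraicClosure (LaurentSeries 𝕜))).fieldRange := by
    induction hy using IntermediateField.adjoin_induction with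
    | mem x hx =>
      rw [Set.mem_singleton_iff] at hx
      rw [hx, hφ'γ]
      exact ⟨_, rfl⟩
    | algebraMap x => exact h1 x
    | add x y _ _ hx hy => rw [map_add]; exact add_mem hx hy
    | inv x _ hx => rw [map_inv₀]; exact inv_mem hx
    | mul x y _ _ hx hy => rw [map_mul]; exact mul_mem hx hy
  exact key

end HorRoot

theorem horUnram_root (𝕜 : Type) [Field 𝕜] [IsAlgClosed 𝕜] [CharZero 𝕜] (jK : K →+* 𝕜) {t : E}
    {c₀ : R} {n : ℕ} (hn : n ≠ 0) {γ : E'} (hγ : IsRootExt K t c₀ n γ) (W₁ : R[X])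
    (hW : HorUnram 𝕜 jK t ((X - C c₀) * W₁))
    (h₀ : ∃ ιs : LaurentSeries 𝕜, (ιs - HahnSeries.C (jK (algebraMap R K c₀))).order = (n : ℤ) ∧
      LandsIn 𝕜 jK t ιs) :
    HorUnram 𝕜 jK γ (W₁.comp (X ^ n + C c₀)) := by
  intro c' hc'
  by_cases h0 : c' = 0
  · subst h0
    obtain ⟨ιs, hord, hL⟩ := h₀
    obtain ⟨w, hw⟩ := H.exists_pow_eq n (Nat.pos_of_ne_zero hn)
      (ιs - HahnSeries.C (jK (algebraMap R K c₀))) (by rw [hord])
    refine ⟨w, ?_, HorRoot.landsIn_root 𝕜 jK hγ hL hw⟩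
    rw [map_zero, sub_zero]
    have := congrArg HahnSeries.order hw
    rw [HahnSeries.order_pow, hord, nsmul_eq_mul] at this
    have hn' : (n : ℤ) ≠ 0 := by exact_mod_cast hn
    exact mul_left_cancel₀ hn' (by rw [this, mul_one])
  · set f : R →+* 𝕜 := jK.comp (algebraMap R K) with hf
    have e1 : ((W₁.comp (X ^ n + C c₀)).map f).eval c' = (W₁.map f).eval (c' ^ n + f c₀) := by
      rw [Polynomial.map_comp, eval_comp]
      simp
    rw [e1] at hc'
    obtain ⟨ιs, hord, hL⟩ := hW (c' ^ n + f c₀) (by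
      rw [Polynomial.map_mul, eval_mul]
      refine mul_ne_zero ?_ hc'
      have : ((X - C c₀ : R[X]).map f).eval (c' ^ n + f c₀) = c' ^ n := by simp
      rw [this]
      exact pow_ne_zero n h0)
    obtain ⟨y, hy, hy1⟩ := HorRoot.exists_root_near hn c' h0 _ hord
    refine ⟨y, hy1, HorRoot.landsIn_root 𝕜 jK hγ hL ?_⟩
    rw [hy, map_add]
    show _ = ιs - HahnSeries.C (f c₀)
    ring

end Fermat.Agent.S18
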