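import Fermat.Agent.S18.AT.Transfer
import Fermat.Agent.S18.AT.HorRoot

set_option autoImplicit false

/-!
# S18 / AT / Step : one tame branch point removed   (task AT-Step)

SKETCH.  `haveI := Fact.mk hirr`, `E' := AdjoinRoot (X ^ n - C (t - rE R K E c₀))` (a field, an
`E`-algebra, a `K`-algebra with scalar tower: instances exist for `AdjoinRoot`), `γ := AdjoinRoot.root _`.
`IsRootExt K t c₀ n γ`: `pow_eq` from `AdjoinRoot.eval₂_root`/`AdjoinRoot.aeval_eq`; `finrank_eq` from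
`(AdjoinRoot.powerBasis _).finrank` + `natDegree_X_pow_sub_C`; `adjoin_eq` from
`AdjoinRoot.adjoinRoot_eq_top` (`Algebra.adjoin E {root} = ⊤`) and
`IntermediateField.adjoin_eq_top_of_algebra`/`adjoin_algebra_injective`.
`ιγ`: `IsAlgClosed.exists_pow_nat_eq (ιt - ιK c₀) (n > 0)`.
Then `isChart_root`, `horUnram_root`, `uct` for `(E', γ, ιγ)` with `W := W₁.comp (X ^ n + C c₀)` and
`ε' := algebraMap E E' ε` (`IdemLike` by `comp_mem_Emb`), the identity
`evR R K γ (W₁.comp (X ^ n + C c₀)) = algebraMap E E' (evR R K t W₁)`, and `transfer`.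
-/

noncomputable section

namespace Fermat.Agent.S18

open Polynomial IntermediateField

namespace Step

theorem rE_tower {R K E E' : Type} [CommRing R] [Field K] [Algebra R K] [Field E] [Algebra K E]
    [Field E'] [Algebra K E'] [Algebra E E'] [IsScalarTower K E E'] :
    rE R K E' = (algebraMap E E').comp (rE R K E) := by
  ext r
  simp only [rE, RingHom.comp_apply]
  exact IsScalarTower.algebraMap_apply K E E' _

theorem evR_comp {R K E E' : Type} [CommRing R] [Field K] [Algebra R K] [Field E] [Algebra K E]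
    [Field E'] [Algebra K E'] [Algebra E E'] [IsScalarTower K E E'] {t : E} {c₀ : R} {n : ℕ}
    {γ : E'} (hγ : γ ^ n = algebraMap E E' (t - rE R K E c₀)) (W₁ : R[X]) :
    evR R K γ (W₁.comp (X ^ n + C c₀)) = algebraMap E E' (evR R K t W₁) := by
  have h1 : eval₂ (rE R K E') γ (X ^ n + C c₀ : R[X]) = algebraMap E E' t := by
    rw [eval₂_add, eval₂_pow, eval₂_X, eval₂_C, hγ, rE_tower (E := E) (E' := E'), map_sub,
      RingHom.comp_apply, sub_add_cancel]
  simp only [evR, coe_eval₂RingHom]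
  rw [eval₂_comp, h1, rE_tower (E := E) (E' := E'), hom_eval₂]

theorem isRootExt_adjoinRoot {R K E : Type} [CommRing R] [Field K] [Algebra R K] [Field E]
    [Algebra K E] (t : E) (c₀ : R) (n : ℕ)
    [Fact (Irreducible (X ^ n - C (t - rE R K E c₀) : E[X]))] :
    IsRootExt K t c₀ n (AdjoinRoot.root (X ^ n - C (t - rE R K E c₀) : E[X])) where
  pow_eq := by
    have h := AdjoinRoot.eval₂_root (X ^ n - C (t - rE R K E c₀) : E[X])
    rw [eval₂_sub, eval₂_pow, eval₂_X, eval₂_C, sub_eq_zero] at h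
    exact h
  finrank_eq := by
    have h0 : (X ^ n - C (t - rE R K E c₀) : E[X]) ≠ 0 :=
      (Fact.out : Irreducible (X ^ n - C (t - rE R K E c₀) : E[X])).ne_zero
    rw [(AdjoinRoot.powerBasis h0).finrank, AdjoinRoot.powerBasis_dim,
      natDegree_X_pow_sub_C]
  adjoin_eq := by
    apply IntermediateField.adjoin_eq_top_of_algebra
    exact AdjoinRoot.adjoinRoot_eq_top

end Step

variable {R K E : Type} [CommRing R] [IsDomain R] [IsDiscreteValuationRing R] [Field K]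
  [CharZero K] [Algebra R K] [IsFractionRing R K] [Field E] [Algebra K E]

theorem chart_root_step (𝒱 : VData R K) {ϖ : R} (hϖ : Irreducible ϖ) {t : E} {ιt : 𝒱.Ω}
    (h : IsChart 𝒱 t ιt) (𝕜 : Type) [Field 𝕜] [IsAlgClosed 𝕜] [CharZero 𝕜] (jK : K →+* 𝕜)
    {c₀ : R} {n : ℕ} (hn : IsUnit (n : R))
    (hirr : Irreducible (X ^ n - C (t - rE R K E c₀) : E[X])) (W₁ : R[X])
    (hW : HorUnram 𝕜 jK t ((X - C c₀) * W₁))
    (h₀ : ∃ ιs : LaurentSeries 𝕜, (ιs - HahnSeries.C (jK (algebraMap R K c₀))).order = (n : ℤ) ∧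
      LandsIn 𝕜 jK t ιs)
    (ε : E) (hε : IdemLike 𝒱 t ιt ε) :
    ∃ (k : ℕ) (y : E), y ∈ CInt R K t ∧ CongA K ϖ t y (evR R K t W₁ ^ k * ε) := by
  have hn0 : n ≠ 0 := by
    rintro rfl
    simp at hn
  have := Fact.mk hirr
  have hγ := Step.isRootExt_adjoinRoot (K := K) t c₀ n
  obtain ⟨ιγ, hιγ⟩ := IsAlgClosed.exists_pow_nat_eq (ιt - 𝒱.ιK (algebraMap R K c₀))
    (Nat.pos_of_ne_zero hn0)
  have hch := isChart_root 𝒱 h hn hγ hιγ
  have hhor := horUnram_root 𝕜 jK hn0 hγ W₁ hW h₀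
  have hε' : IdemLike 𝒱 (AdjoinRoot.root (X ^ n - C (t - rE R K E c₀) : E[X])) ιγ
      (algebraMap E (AdjoinRoot (X ^ n - C (t - rE R K E c₀) : E[X])) ε) :=
    fun φ hφ => hε _ (comp_mem_Emb 𝒱 hγ hιγ hφ)
  obtain ⟨k, y', hy', hc⟩ := uct 𝒱 hϖ hch 𝕜 jK _ hhor _ hε'
  rw [Step.evR_comp hγ.pow_eq, ← map_pow, ← map_mul] at hc
  obtain ⟨y, hy, hyc⟩ := transfer 𝒱 hϖ h hn hγ _ y' hy' hc
  exact ⟨k, y, hy, hyc⟩

end Fermat.Agent.S18
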