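import Fermat.Agent.S18.AT.Defs

set_option autoImplicit false

/-!
# S18 / AT : the `S₂`-property of integral closures

`A` a UFD, `a, b` coprime, `a z` and `b z` integral over `A` ⟹ `z` integral over `A`.
-/

namespace Fermat.Agent.S18

open Polynomial Module

theorem isIntegral_of_smul_of_smul {A E : Type*} [CommRing A] [IsDomain A]
    [UniqueFactorizationMonoid A] [Field E] [Algebra A E] [FaithfulSMul A E]
    {a b : A} (hab : IsRelPrime a b) (ha : a ≠ 0) {z : E} (h1 : IsIntegral A (a • z))
    (h2 : IsIntegral A (b • z)) : IsIntegral A z := by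
  rcases eq_or_ne b 0 with rfl | hb
  · have hu : IsUnit a := hab (dvd_refl a) (dvd_zero a)
    obtain ⟨u, rfl⟩ := hu
    have := h1.smul ((u⁻¹ : Aˣ) : A)
    rwa [smul_smul, Units.inv_mul, one_smul] at this
  set f := minpoly A (a • z) with hf
  set g := minpoly A (b • z) with hg
  have hfg : f.scaleRoots b = g.scaleRoots a := by
    rw [hf, hg, ← IsIntegrallyClosed.minpoly_smul hb h1,
      ← IsIntegrallyClosed.minpoly_smul ha h2, smul_comm]
  have hdeg : f.natDegree = g.natDegree := by
    have := congrArg natDegree hfg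
    rwa [natDegree_scaleRoots, natDegree_scaleRoots] at this
  set m := f.natDegree with hm
  have hdvd : ∀ i, a ^ (m - i) ∣ f.coeff i := by
    intro i
    have h := congrArg (fun q => q.coeff i) hfg
    simp only [coeff_scaleRoots, ← hdeg, ← hm] at h
    apply (hab.pow (m := m - i) (n := m - i)).dvd_of_dvd_mul_right
    rw [h]
    exact Dvd.intro_left _ rfl
  choose c hc using hdvd
  have hfm : f.Monic := minpoly.monic h1
  set h' : A[X] := ∑ i ∈ Finset.range m, C (c i) * X ^ i with hh'
  have hdeg' : h'.degree < (m : WithBot ℕ) := by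
    rw [degree_lt_iff_coeff_zero]
    intro k hk
    rw [hh', finsetSum_coeff]
    apply Finset.sum_eq_zero
    intro i hi
    rw [coeff_C_mul_X_pow, if_neg]
    have := Finset.mem_range.1 hi
    omega
  refine ⟨X ^ m + h', monic_X_pow_add hdeg', ?_⟩
  have hev : aeval (a • z) f = 0 := minpoly.aeval A _
  rw [aeval_eq_sum_range, ← hm, Finset.sum_range_succ] at hev
  have key : (a ^ m) • (z ^ m + ∑ i ∈ Finset.range m, c i • z ^ i) = 0 := by
    rw [← hev, smul_add, Finset.smul_sum, add_comm]
    congr 1
    · apply Finset.sum_congr rfl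
      intro i hi
      have hi' : i ≤ m := (Finset.mem_range.1 hi).le
      rw [hc i, _root_.smul_pow, smul_smul, smul_smul]
      congr 1
      have : a ^ m = a ^ (m - i) * a ^ i := by rw [← pow_add, Nat.sub_add_cancel hi']
      rw [this]; ring
    · rw [hfm.coeff_natDegree, one_smul, _root_.smul_pow]
  have hz := (smul_eq_zero.1 key).resolve_left (pow_ne_zero m ha)
  rw [← aeval_def, map_add, map_pow, aeval_X, hh', map_sum, ← hz]
  congr 1
  apply Finset.sum_congr rfl
  intro i _
  rw [map_mul, aeval_C, map_pow, aeval_X, Algebra.smul_def]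

end Fermat.Agent.S18
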