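import Fermat.Agent.S18.AT.InO

set_option autoImplicit false
set_option linter.unusedSectionVars false
set_option linter.style.haveILetI false

/-!
# S18 / AT / Basis : (C1) a good basis of `E / K(t)`

`C_t / ϖ C_t` is a finitely generated torsion free module over the PID `κ[X]`, hence free; lifting a
basis and Nakayama give `b_i ∈ C_t`, a basis of `E / K(t)`, and `r ≡ 1 mod ϖ` with
`r C_t ⊆ ∑ R[t] b_i`.
-/

noncomputable section

namespace Fermat.Agent.S18

open Polynomial IntermediateField Module

/-- abstract form of (C1). -/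
theorem exists_basis_aux {A E : Type*} [CommRing A] [IsDomain A] [UniqueFactorizationMonoid A]
    [Field E] [Algebra A E] [FaithfulSMul A E] {p : A} (hp : Prime p)
    [IsPrincipalIdealRing (A ⧸ Ideal.span {p})] [Module.Finite A (integralClosure A E)] :
    ∃ (n : ℕ) (b : Fin n → E) (r : A), (∀ i, IsIntegral A (b i)) ∧ p ∣ r - 1 ∧
      (∀ y, IsIntegral A y → ∃ c : Fin n → A, r • y = ∑ i, c i • b i) ∧
      LinearIndependent A b := by
  classical
  set I : Ideal A := Ideal.span {p} with hI
  haveI : I.IsPrime := (Ideal.span_singleton_prime hp.ne_zero).2 hp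
  set Cc := integralClosure A E with hCc
  -- membership in `I • ⊤`
  have hmemI : ∀ c : Cc, c ∈ (I • (⊤ : Submodule A Cc)) ↔ ∃ c' : Cc, c = p • c' := by
    intro c
    rw [hI, Submodule.ideal_span_singleton_smul, Submodule.mem_smul_pointwise_iff_exists]
    constructor
    · rintro ⟨c', -, h⟩; exact ⟨c', h.symm⟩
    · rintro ⟨c', h⟩; exact ⟨c', trivial, h.symm⟩
  -- torsion freeness
  haveI : IsTorsionFree (A ⧸ I) (Cc ⧸ (I • (⊤ : Submodule A Cc))) := by
    apply Module.IsTorsionFree.of_smul_eq_zero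
    intro a m h
    obtain ⟨a, rfl⟩ := Ideal.Quotient.mk_surjective a
    obtain ⟨m, rfl⟩ := Submodule.Quotient.mk_surjective _ m
    rw [Module.Quotient.mk_smul_mk, Submodule.Quotient.mk_eq_zero, hmemI] at h
    obtain ⟨c', hc'⟩ := h
    by_cases ha : a ∈ I
    · left; exact Ideal.Quotient.eq_zero_iff_mem.2 ha
    · right
      rw [Submodule.Quotient.mk_eq_zero, hmemI]
      have hpa : ¬ p ∣ a := fun hd => ha (Ideal.mem_span_singleton.2 hd)
      have hpE : algebraMap A E p ≠ 0 := by
        rw [Ne, FaithfulSMul.algebraMap_eq_zero_iff]; exact hp.ne_zero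
      -- `z = m / p`
      set z : E := (m : E) / algebraMap A E p with hz
      have h1 : p • z = (m : E) := by
        rw [Algebra.smul_def, hz, mul_div_cancel₀ _ hpE]
      have h2 : a • z = (c' : E) := by
        have h3 : a • (m : E) = p • (c' : E) := congrArg Subtype.val hc'
        rw [Algebra.smul_def, Algebra.smul_def] at h3
        rw [Algebra.smul_def, hz, mul_div_assoc', h3, mul_div_cancel_left₀ _ hpE]
      have hzint : IsIntegral A z :=
        isIntegral_of_smul_of_smul (hp.irreducible.isRelPrime_iff_not_dvd.2 hpa) hp.ne_zero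
          (by rw [h1]; exact m.2) (by rw [h2]; exact c'.2)
      exact ⟨⟨z, hzint⟩, Subtype.ext h1.symm⟩
  haveI : Module.Finite (A ⧸ I) (Cc ⧸ (I • (⊤ : Submodule A Cc))) :=
    Module.Finite.of_restrictScalars_finite A _ _
  obtain ⟨n, bb⟩ := Module.basisOfFiniteTypeTorsionFree' (R := A ⧸ I)
    (M := Cc ⧸ (I • (⊤ : Submodule A Cc)))
  have hlift : ∀ i, ∃ c : Cc, Submodule.Quotient.mk c = bb i :=
    fun i => Submodule.Quotient.mk_surjective _ (bb i)
  choose b hb using hlift
  -- reduction of a linear combination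
  have hred : ∀ c : Fin n → A, (Submodule.Quotient.mk (∑ i, c i • b i) :
      Cc ⧸ (I • (⊤ : Submodule A Cc))) = ∑ i, Ideal.Quotient.mk I (c i) • bb i := by
    intro c
    rw [← Submodule.mkQ_apply, map_sum]
    refine Finset.sum_congr rfl fun i _ => ?_
    rw [Submodule.mkQ_apply, ← hb i, Module.Quotient.mk_smul_mk]
  -- Nakayama
  set M : Submodule A Cc := Submodule.span A (Set.range b) with hM
  have htop : (⊤ : Submodule A (Cc ⧸ M)) ≤ I • ⊤ := by
    intro x _
    obtain ⟨x, rfl⟩ := Submodule.Quotient.mk_surjective _ x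
    -- expand `x` modulo `I`
    have hx := bb.sum_repr (Submodule.Quotient.mk x)
    choose c hc using fun i => Ideal.Quotient.mk_surjective (bb.repr (Submodule.Quotient.mk x) i)
    have h1 : (Submodule.Quotient.mk (x - ∑ i, c i • b i) :
        Cc ⧸ (I • (⊤ : Submodule A Cc))) = 0 := by
      rw [Submodule.Quotient.mk_sub, hred, sub_eq_zero, ← hx]
      exact Finset.sum_congr rfl fun i _ => by rw [hc i]
    rw [Submodule.Quotient.mk_eq_zero, hmemI] at h1
    obtain ⟨c', hc'⟩ := h1
    have h2 : (Submodule.Quotient.mk x : Cc ⧸ M) = p • Submodule.Quotient.mk c' := by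
      rw [← Submodule.Quotient.mk_smul, ← hc', Submodule.Quotient.mk_sub, eq_comm, sub_eq_self,
        Submodule.Quotient.mk_eq_zero]
      exact M.sum_mem fun i _ => M.smul_mem _ (Submodule.subset_span ⟨i, rfl⟩)
    rw [h2]
    exact Submodule.smul_mem_smul (Ideal.mem_span_singleton_self p) trivial
  obtain ⟨r, hr1, hr2⟩ := Submodule.exists_sub_one_mem_and_smul_eq_zero_of_fg_of_le_smul I
    (⊤ : Submodule A (Cc ⧸ M)) Module.Finite.fg_top htop
  refine ⟨n, fun i => (b i : E), r, fun i => (b i).2, Ideal.mem_span_singleton.1 hr1, ?_, ?_⟩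
  · intro y hy
    have h1 := hr2 (Submodule.Quotient.mk ⟨y, hy⟩) trivial
    rw [← Submodule.Quotient.mk_smul, Submodule.Quotient.mk_eq_zero, hM,
      Submodule.mem_span_range_iff_exists_fun] at h1
    obtain ⟨c, hc⟩ := h1
    refine ⟨c, ?_⟩
    have := congrArg (fun z : Cc => (z : E)) hc
    simp only [AddSubmonoidClass.coe_finsetSum] at this
    exact this.symm
  · -- linear independence
    rw [Fintype.linearIndependent_iff]
    intro g hg
    have hg' : ∀ g : Fin n → A, ∑ i, g i • (b i : E) = 0 → ∀ i, p ∣ g i := by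
      intro g hg i
      have h0 : ∑ i, g i • b i = 0 := by
        apply Subtype.ext
        simp only [AddSubmonoidClass.coe_finsetSum]
        exact hg
      have h1 := hred g
      rw [h0, Submodule.Quotient.mk_zero] at h1
      have h2 := (Fintype.linearIndependent_iff.1 bb.linearIndependent) _ h1.symm i
      exact Ideal.mem_span_singleton.1 (Ideal.Quotient.eq_zero_iff_mem.1 h2)
    have hpow : ∀ k : ℕ, ∀ g : Fin n → A, ∑ i, g i • (b i : E) = 0 → ∀ i, p ^ k ∣ g i := by
      intro k
      induction k with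
      | zero => intro g _ i; simp
      | succ k ih =>
        intro g hg i
        choose g' hg'' using hg' g hg
        have h3 : ∑ i, g' i • (b i : E) = 0 := by
          have : p • ∑ i, g' i • (b i : E) = 0 := by
            rw [Finset.smul_sum, ← hg]
            exact Finset.sum_congr rfl fun i _ => by rw [smul_smul, ← hg'' i]
          exact (smul_eq_zero.1 this).resolve_left hp.ne_zero
        obtain ⟨q, hq⟩ := ih g' h3 i
        exact ⟨q, by rw [hg'' i, hq, pow_succ']; ring⟩
    intro i
    by_contra hne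
    obtain ⟨k, hk⟩ := (FiniteMultiplicity.of_not_isUnit hp.not_isUnit hne)
    exact hk (hpow _ g hg i)

variable {R K E : Type} [CommRing R] [IsDomain R] [IsDiscreteValuationRing R] [Field K]
  [Algebra R K] [IsFractionRing R K] [Field E] [Algebra K E]

theorem isPrincipalIdealRing_quot {ϖ : R} (hϖ : Irreducible ϖ) :
    IsPrincipalIdealRing (R[X] ⧸ Ideal.span {(C ϖ : R[X])}) := by
  set J : Ideal R := Ideal.span {ϖ} with hJ
  haveI : J.IsMaximal := by
    rw [hJ, ← hϖ.maximalIdeal_eq]; infer_instance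
  letI := Ideal.Quotient.field J
  have hmap : J.map (C : R →+* R[X]) = Ideal.span {C ϖ} := by
    rw [hJ, Ideal.map_span, Set.image_singleton]
  rw [← hmap]
  exact IsPrincipalIdealRing.of_surjective
    (Ideal.polynomialQuotientEquivQuotientPolynomial J).toRingHom
    (Ideal.polynomialQuotientEquivQuotientPolynomial J).surjective

/-- **(C1)**: a basis of `E / K(t)` consisting of elements of `C_t`, which generates `C_t` over `R[t]`
up to a denominator `r ≡ 1 mod ϖ`. -/
theorem exists_good_basis [CharZero K] {ϖ : R} (hϖ : Irreducible ϖ) {t : E}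
    (ht : Transcendental K t) (hfin : FiniteDimensional K⟮t⟯ E) :
    ∃ (n : ℕ) (b : Basis (Fin n) K⟮t⟯ E) (r : R[X]), (∀ i, b i ∈ CInt R K t) ∧ C ϖ ∣ r - 1 ∧
      ∀ y ∈ CInt R K t, ∃ c : Fin n → R[X], evR R K t r * y = ∑ i, evR R K t (c i) * b i := by
  letI := chartAlg R K t
  letI := chartAlgL R K t
  haveI := chart_tower (R := R) (K := K) t
  haveI := chart_isFractionRing (R := R) ht
  haveI := chart_faithful (R := R) ht
  haveI := chart_finite (R := R) ht hfin
  haveI := isPrincipalIdealRing_quot hϖ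
  obtain ⟨n, b, r, hb, hr, hgen, hli⟩ := exists_basis_aux (A := R[X]) (E := E) (prime_C_unif hϖ)
  have hr0 : r ≠ 0 := by
    rintro rfl
    rw [zero_sub, dvd_neg] at hr
    exact not_C_dvd_one hϖ hr
  have hli' : LinearIndependent K⟮t⟯ b := (LinearIndependent.iff_fractionRing R[X] K⟮t⟯).1 hli
  have hsp : ⊤ ≤ Submodule.span K⟮t⟯ (Set.range b) := by
    intro y _
    have halg : IsAlgebraic R[X] y := by
      have h1 : IsAlgebraic K⟮t⟯ y := Algebra.IsAlgebraic.isAlgebraic y
      exact (IsFractionRing.isAlgebraic_iff R[X] K⟮t⟯ E).2 h1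
    obtain ⟨a, ha, hay⟩ := halg.exists_integral_multiple
    obtain ⟨c, hc⟩ := hgen _ hay
    have hne : algebraMap R[X] K⟮t⟯ (r * a) ≠ 0 := by
      rw [Ne, FaithfulSMul.algebraMap_eq_zero_iff]
      exact mul_ne_zero hr0 ha
    have e : y = (algebraMap R[X] K⟮t⟯ (r * a))⁻¹ • ∑ i, c i • b i := by
      rw [← hc, smul_smul, ← algebraMap_smul K⟮t⟯ (r * a) y, smul_smul, inv_mul_cancel₀ hne,
        one_smul]
    rw [e]
    refine Submodule.smul_mem _ _ (Submodule.sum_mem _ fun i _ => ?_)
    rw [← algebraMap_smul K⟮t⟯ (c i) (b i)]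
    exact Submodule.smul_mem _ _ (Submodule.subset_span ⟨i, rfl⟩)
  refine ⟨n, Basis.mk hli' hsp, r, fun i => by rw [Basis.mk_apply]; exact hb i, hr, ?_⟩
  intro y hy
  obtain ⟨c, hc⟩ := hgen y hy
  refine ⟨c, ?_⟩
  simp only [Basis.mk_apply]
  exact hc

end Fermat.Agent.S18
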