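import Fermat.Agent.S18.AT.Defs
import Fermat.Agent.S18.AT.AU.Final
import Fermat.Agent.S18.AT.Bridge.Ring
import Fermat.Agent.S18.AT.Bridge.HorPoly
import Fermat.Agent.S18.AT.Bridge.HorChart

set_option autoImplicit false
set_option linter.style.haveILetI false
set_option linter.unusedSectionVars false

/-!
# S18 / AT / Chart : the three theorems about ONE chart `(E, t, 𝒱, ιt)`

These are the raw forms of the abstract chapter `AT/AU/*` (transported by `AT/Bridge/*`).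
-/

noncomputable section

namespace Fermat.Agent.S18

open Polynomial IntermediateField

variable {R K E : Type} [CommRing R] [IsDomain R] [IsDiscreteValuationRing R] [Field K] [CharZero K]
  [Algebra R K] [IsFractionRing R K] [Field E] [Algebra K E]

namespace ChartAux

theorem locInt_iff {ϖ : R} {t y : E} :
    letI := chartAlg R K t
    AU.LocInt (C ϖ : R[X]) y ↔ InO K ϖ t y := by
  letI := chartAlg R K t
  exact Iff.rfl

theorem mem_Emb_iff (𝒱 : VData R K) {t : E} {ιt : 𝒱.Ω} (h : IsChart 𝒱 t ιt) (P : (E →+* 𝒱.Ω) → Prop) :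
    letI := tgtAlgL R h.trans 𝒱.ιK ιt (evF_injective_of_isGauss 𝒱 h.gauss)
    (∀ φ ∈ Emb 𝒱 t ιt, P φ) ↔ ∀ φ : E →ₐ[K⟮t⟯] 𝒱.Ω, P (φ : E →+* 𝒱.Ω) := by
  letI := tgtAlgL R h.trans 𝒱.ιK ιt (evF_injective_of_isGauss 𝒱 h.gauss)
  constructor
  · intro H φ
    exact H _ (algHom_comp h.trans 𝒱.ιK ιt (evF_injective_of_isGauss 𝒱 h.gauss) φ)
  · intro H φ hφ
    obtain ⟨φ', rfl⟩ := exists_algHom h.trans 𝒱.ιK ιt (evF_injective_of_isGauss 𝒱 h.gauss) φ hφ.1 hφ.2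
    exact H φ'

theorem intO_iff (𝒱 : VData R K) {t : E} {ιt : 𝒱.Ω} (h : IsChart 𝒱 t ιt) (y : E) :
    letI := tgtAlgL R h.trans 𝒱.ιK ιt (evF_injective_of_isGauss 𝒱 h.gauss)
    AU.IntO K⟮t⟯ 𝒱.O y ↔ y ∈ OInt 𝒱 t ιt :=
  (mem_Emb_iff 𝒱 h (fun φ => φ y ∈ 𝒱.O)).symm

theorem dRed (𝒱 : VData R K) {t : E} {ιt : 𝒱.Ω} (h : IsChart 𝒱 t ιt) :
    letI := tgtAlgL R h.trans 𝒱.ιK ιt (evF_injective_of_isGauss 𝒱 h.gauss)
    AU.DRed K⟮t⟯ E 𝒱.O := by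
  letI := tgtAlgL R h.trans 𝒱.ιK ιt (evF_injective_of_isGauss 𝒱 h.gauss)
  intro φ φ' hne
  have h1 := algHom_comp h.trans 𝒱.ιK ιt (evF_injective_of_isGauss 𝒱 h.gauss) φ
  have h2 := algHom_comp h.trans 𝒱.ιK ιt (evF_injective_of_isGauss 𝒱 h.gauss) φ'
  obtain ⟨y, hy, hy'⟩ := h.dred (φ : E →+* 𝒱.Ω) h1 (φ' : E →+* 𝒱.Ω) h2 (by
    intro heq
    apply hne
    ext z
    exact congrArg (fun f : E →+* 𝒱.Ω => f z) heq)
  exact ⟨y, (intO_iff 𝒱 h y).2 hy, hy'⟩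

end ChartAux

open ChartAux

/-- the integral closure of the Gauss valuation ring is the localisation of `CInt` at `(ϖ)`. -/
theorem inO_iff_mem_OInt (𝒱 : VData R K) {ϖ : R} (hϖ : Irreducible ϖ) {t : E} {ιt : 𝒱.Ω}
    (h : IsChart 𝒱 t ιt) (y : E) : InO K ϖ t y ↔ y ∈ OInt 𝒱 t ιt := by
  have hinj := evF_injective_of_isGauss 𝒱 h.gauss
  letI := chartAlg R K t
  letI := chartAlgL R K t
  haveI := chart_tower (R := R) (K := K) t
  haveI := chart_isFractionRing (R := R) h.trans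
  letI := tgtAlg R 𝒱.ιK ιt
  letI := tgtAlgL R h.trans 𝒱.ιK ιt hinj
  haveI := tgt_tower h.trans 𝒱.ιK ιt hinj
  haveI := h.fin
  have hG := gaussA_of_isGauss 𝒱 hϖ h.gauss
  rw [← intO_iff 𝒱 h y, ← locInt_iff]
  exact ⟨fun H => AU.intO_of_locInt hG H, fun H => AU.locInt_of_intO (prime_C_unif hϖ) hG H⟩

/-- (the Gauss valuation is unramified in `E`)  if all conjugates of `y` are nonunits then
`y ∈ ϖ * InO`. -/
theorem exists_eq_mul_of_nonunits (𝒱 : VData R K) {ϖ : R} (hϖ : Irreducible ϖ) {t : E} {ιt : 𝒱.Ω}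
    (h : IsChart 𝒱 t ιt) (y : E) (hy : ∀ φ ∈ Emb 𝒱 t ιt, φ y ∈ 𝒱.O.nonunits) :
    ∃ η : E, InO K ϖ t η ∧ y = rE R K E ϖ * η := by
  have hinj := evF_injective_of_isGauss 𝒱 h.gauss
  letI := chartAlg R K t
  letI := chartAlgL R K t
  haveI := chart_tower (R := R) (K := K) t
  haveI := chart_isFractionRing (R := R) h.trans
  letI := tgtAlg R 𝒱.ιK ιt
  letI := tgtAlgL R h.trans 𝒱.ιK ιt hinj
  haveI := tgt_tower h.trans 𝒱.ιK ιt hinj
  haveI := h.fin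
  haveI : CharZero K⟮t⟯ := charZero_of_injective_algebraMap (algebraMap K K⟮t⟯).injective
  have hG := gaussA_of_isGauss 𝒱 hϖ h.gauss
  obtain ⟨η, hη, hyη⟩ := AU.exists_eq_smul_of_nonunits (L := K⟮t⟯) (prime_C_unif hϖ)
    (quot_isPrincipalIdealRing hϖ) hG (dRed 𝒱 h) (y := y)
    ((mem_Emb_iff 𝒱 h (fun φ => φ y ∈ 𝒱.O.nonunits)).1 hy)
  refine ⟨η, locInt_iff.1 hη, ?_⟩
  rw [hyη, Algebra.smul_def, ← evR_C t]
  rfl

/-- **unramified chart theorem.** -/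
theorem uct (𝒱 : VData R K) {ϖ : R} (hϖ : Irreducible ϖ) {t : E} {ιt : 𝒱.Ω}
    (h : IsChart 𝒱 t ιt) (𝕜 : Type) [Field 𝕜] [IsAlgClosed 𝕜] [CharZero 𝕜] (jK : K →+* 𝕜)
    (W : R[X]) (hW : HorUnram 𝕜 jK t W) (ε : E) (hε : IdemLike 𝒱 t ιt ε) :
    ∃ (k : ℕ) (y : E), y ∈ CInt R K t ∧ CongA K ϖ t y (evR R K t W ^ k * ε) := by
  have hinj := evF_injective_of_isGauss 𝒱 h.gauss
  letI := chartAlg R K t
  letI := chartAlgL R K t
  haveI := chart_tower (R := R) (K := K) t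
  haveI := chart_isFractionRing (R := R) h.trans
  letI := tgtAlg R 𝒱.ιK ιt
  letI := tgtAlgL R h.trans 𝒱.ιK ιt hinj
  haveI := tgt_tower h.trans 𝒱.ιK ιt hinj
  haveI := h.fin
  haveI : CharZero K⟮t⟯ := charZero_of_injective_algebraMap (algebraMap K K⟮t⟯).injective
  have hG := gaussA_of_isGauss 𝒱 hϖ h.gauss
  obtain ⟨k, y, η, hy, hη, hyη⟩ := AU.auct (L := K⟮t⟯) (prime_C_unif hϖ)
    (quot_isPrincipalIdealRing hϖ) hG (dRed 𝒱 h) W (by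
      intro m hm hmW hmp
      obtain ⟨c', h0, h1, h2⟩ := exists_root_of_prime hϖ 𝕜 jK hm hmp
      obtain ⟨ιs, hord, hl⟩ := hW c' (fun hc => hmW (h2 W hc))
      exact horAt_of_chart h.trans 𝕜 jK h0 h1 h2 hord hl) (ε := ε)
    ((mem_Emb_iff 𝒱 h (fun φ => φ ε ∈ 𝒱.O.nonunits ∨ φ ε - 1 ∈ 𝒱.O.nonunits)).1 hε)
  refine ⟨k, y, hy, η, locInt_iff.1 hη, ?_⟩
  rw [Algebra.smul_def, Algebra.smul_def, map_pow] at hyη
  rw [← evR_C t]
  exact hyη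

end Fermat.Agent.S18
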