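import Fermat.Agent.S18.AbsDefs

set_option autoImplicit false

/-!
# S18 / AT : definitions for the proof of the abstract connectedness theorem `acc`

A *chart* is a pair `(E, t)`: `E` a field over `K = Frac R`, `t ∈ E` transcendental over `K` with
`E / K(t)` finite, together with vertical data `(𝒱, ιt)`.

* `evR R K t : R[X] →+* E`, `X ↦ t`;
* `CInt R K t` : elements of `E` integral over `R[t]`;
* `OInt 𝒱 t ιt` : elements of `E` all of whose conjugates (over `K(t)`) in `Ω` lie in `O`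
  (= integral closure of the Gauss valuation ring of `K(t)`);
* `Cong 𝒱 ϖ t ιt y y'` : `y ≡ y' mod ϖ * OInt`.
-/

noncomputable section

namespace Fermat.Agent.S18

open Polynomial IntermediateField

section
variable (R K : Type) {E : Type} [CommRing R] [Field K] [Algebra R K] [Field E] [Algebra K E]

/-- the structure map `R → E`. -/
def rE (E : Type) [Field E] [Algebra K E] : R →+* E := (algebraMap K E).comp (algebraMap R K)

/-- evaluation `R[X] → E`, `X ↦ t`. -/
def evR (t : E) : R[X] →+* E := eval₂RingHom (rE R K E) t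

/-- elements of `E` integral over `R[t]`. -/
def CInt (t : E) : Subring E where
  carrier := {y | (evR R K t).IsIntegralElem y}
  mul_mem' := fun ha hb => RingHom.IsIntegralElem.mul _ ha hb
  one_mem' := by simpa using (evR R K t).isIntegralElem_map (x := 1)
  add_mem' := fun ha hb => RingHom.IsIntegralElem.add _ ha hb
  zero_mem' := by simpa using (evR R K t).isIntegralElem_map (x := 0)
  neg_mem' := fun ha => RingHom.IsIntegralElem.neg _ ha

variable {R K}

theorem mem_CInt {t y : E} : y ∈ CInt R K t ↔ (evR R K t).IsIntegralElem y := Iff.rfl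

/-- elements of `E` whose conjugates in `Ω` all lie in `O`. -/
def OInt (𝒱 : VData R K) (t : E) (ιt : 𝒱.Ω) : Subring E where
  carrier := {y | ∀ φ ∈ Emb 𝒱 t ιt, φ y ∈ 𝒱.O}
  mul_mem' := fun ha hb φ hφ => by rw [map_mul]; exact 𝒱.O.mul_mem _ _ (ha φ hφ) (hb φ hφ)
  one_mem' := fun φ _ => by rw [map_one]; exact 𝒱.O.one_mem
  add_mem' := fun ha hb φ hφ => by rw [map_add]; exact 𝒱.O.add_mem _ _ (ha φ hφ) (hb φ hφ)
  zero_mem' := fun φ _ => by rw [map_zero]; exact 𝒱.O.zero_mem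
  neg_mem' := fun ha φ hφ => by rw [map_neg]; exact 𝒱.O.neg_mem _ (ha φ hφ)

theorem mem_OInt {𝒱 : VData R K} {t : E} {ιt : 𝒱.Ω} {y : E} :
    y ∈ OInt 𝒱 t ιt ↔ ∀ φ ∈ Emb 𝒱 t ιt, φ y ∈ 𝒱.O := Iff.rfl

/-- `y ≡ y'` modulo `ϖ * OInt`. -/
def Cong (𝒱 : VData R K) (ϖ : R) (t : E) (ιt : 𝒱.Ω) (y y' : E) : Prop :=
  ∃ η ∈ OInt 𝒱 t ιt, y - y' = rE R K E ϖ * η

/-- algebraic version of `OInt` (no `Ω`): `y` lies in the localisation of `CInt R K t` at the prime
`(ϖ)` of `R[t]`. -/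
def InO (K : Type) {R E : Type} [CommRing R] [Field K] [Algebra R K] [Field E] [Algebra K E]
    (ϖ : R) (t : E) (y : E) : Prop :=
  ∃ s : R[X], ¬ C ϖ ∣ s ∧ evR R K t s * y ∈ CInt R K t

/-- `y ≡ y'` modulo `ϖ * InO` (algebraic version of `Cong`). -/
def CongA (K : Type) {R E : Type} [CommRing R] [Field K] [Algebra R K] [Field E] [Algebra K E]
    (ϖ : R) (t : E) (y y' : E) : Prop :=
  ∃ η : E, InO K ϖ t η ∧ y - y' = rE R K E ϖ * η

/-- `ε` reduces to `0` or `1` at every extension of the Gauss valuation. -/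
def IdemLike (𝒱 : VData R K) (t : E) (ιt : 𝒱.Ω) (ε : E) : Prop :=
  ∀ φ ∈ Emb 𝒱 t ιt, φ ε ∈ 𝒱.O.nonunits ∨ φ ε - 1 ∈ 𝒱.O.nonunits

/-- the chart hypotheses. -/
structure IsChart (𝒱 : VData R K) (t : E) (ιt : 𝒱.Ω) : Prop where
  trans : Transcendental K t
  fin : FiniteDimensional K⟮t⟯ E
  gauss : IsGauss 𝒱 ιt
  dred : DistinctRed 𝒱 t ιt

/-- `E / K(t)` is (horizontally, in characteristic zero) unramified at every point `t = c'` with
`W(c') ≠ 0`. -/
def HorUnram (𝕜 : Type) [Field 𝕜] (jK : K →+* 𝕜) (t : E) (W : R[X]) : Prop :=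
  ∀ c' : 𝕜, (W.map (jK.comp (algebraMap R K))).eval c' ≠ 0 →
    ∃ ιs : LaurentSeries 𝕜, (ιs - HahnSeries.C c').order = 1 ∧ LandsIn 𝕜 jK t ιs

/-- `E' = E(γ)`, `γ ^ n = t - c₀`, `[E' : E] = n`. -/
structure IsRootExt (K : Type) {R E : Type} [CommRing R] [Field K] [Algebra R K] [Field E]
    [Algebra K E] (t : E) (c₀ : R) (n : ℕ) {E' : Type} [Field E'] [Algebra E E'] (γ : E') :
    Prop where
  pow_eq : γ ^ n = algebraMap E E' (t - rE R K E c₀)
  finrank_eq : Module.finrank E E' = n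
  adjoin_eq : E⟮γ⟯ = ⊤

end

end Fermat.Agent.S18
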