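import Fermat.Agent.S18.AT.Coprime

set_option autoImplicit false
set_option linter.unusedSectionVars false
set_option linter.style.haveILetI false
set_option linter.deprecated false

/-!
# S18 / AT : elementary facts on `evR`, `CInt`, `InO`, `CongA`, and the algebra structures of a chart
-/

noncomputable section

namespace Fermat.Agent.S18

open Polynomial IntermediateField Module

section Basic

variable {R K E : Type} [CommRing R] [Field K] [Algebra R K] [Field E] [Algebra K E]

theorem evR_C (t : E) (a : R) : evR R K t (C a) = rE R K E a := by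
  simp [evR]

theorem evR_X (t : E) : evR R K t X = t := by
  simp [evR]

theorem rE_apply (a : R) : rE R K E a = algebraMap K E (algebraMap R K a) := rfl

theorem evR_eq_aeval_map (t : E) (p : R[X]) :
    evR R K t p = aeval t (p.map (algebraMap R K)) := by
  simp only [evR, rE, coe_eval₂RingHom, aeval_def, eval₂_map]

theorem evR_mem_CInt (t : E) (p : R[X]) : evR R K t p ∈ CInt R K t :=
  RingHom.isIntegralElem_map _

theorem rE_mem_CInt (t : E) (a : R) : rE R K E a ∈ CInt R K t := by
  rw [← evR_C t]; exact evR_mem_CInt t _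

theorem self_mem_CInt (t : E) : t ∈ CInt R K t := by
  have := evR_mem_CInt (R := R) (K := K) t X
  rwa [evR_X] at this

end Basic

section DVR

variable {R K E : Type} [CommRing R] [IsDomain R] [IsDiscreteValuationRing R] [Field K]
  [Algebra R K] [Field E] [Algebra K E] {ϖ : R}

theorem prime_C_unif (hϖ : Irreducible ϖ) : Prime (C ϖ : R[X]) :=
  prime_C_iff.2 hϖ.prime

theorem not_C_dvd_one (hϖ : Irreducible ϖ) : ¬ (C ϖ : R[X]) ∣ 1 :=
  (prime_C_unif hϖ).not_dvd_one

theorem not_C_dvd_mul (hϖ : Irreducible ϖ) {r s : R[X]} (hr : ¬ C ϖ ∣ r) (hs : ¬ C ϖ ∣ s) :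
    ¬ C ϖ ∣ r * s := fun h => ((prime_C_unif hϖ).dvd_or_dvd h).elim hr hs

/-- `¬ C ϖ ∣ r` iff some coefficient of `r` is a unit. -/
theorem not_C_dvd_iff (hϖ : Irreducible ϖ) (r : R[X]) :
    ¬ C ϖ ∣ r ↔ ∃ i, IsUnit (r.coeff i) := by
  rw [C_dvd_iff_dvd_coeff]
  constructor
  · intro h
    by_contra hcon
    apply h
    intro i
    have hi : ¬ IsUnit (r.coeff i) := fun hu => hcon ⟨i, hu⟩
    have : r.coeff i ∈ IsLocalRing.maximalIdeal R := (IsLocalRing.mem_maximalIdeal _).2 hi
    rw [hϖ.maximalIdeal_eq, Ideal.mem_span_singleton] at this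
    exact this
  · rintro ⟨i, hi⟩ h
    exact hϖ.not_isUnit (isUnit_of_dvd_unit (h i) hi)

theorem InO.of_mem_CInt (hϖ : Irreducible ϖ) {t y : E} (hy : y ∈ CInt R K t) : InO K ϖ t y :=
  ⟨1, not_C_dvd_one hϖ, by simpa using hy⟩

theorem InO.add (hϖ : Irreducible ϖ) {t y z : E} (hy : InO K ϖ t y) (hz : InO K ϖ t z) :
    InO K ϖ t (y + z) := by
  obtain ⟨r, hr, h1⟩ := hy
  obtain ⟨s, hs, h2⟩ := hz
  refine ⟨r * s, not_C_dvd_mul hϖ hr hs, ?_⟩
  have e : evR R K t (r * s) * (y + z) =
      evR R K t s * (evR R K t r * y) + evR R K t r * (evR R K t s * z) := by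
    rw [map_mul]; ring
  rw [e]
  exact add_mem (mul_mem (evR_mem_CInt t s) h1) (mul_mem (evR_mem_CInt t r) h2)

theorem InO.mul (hϖ : Irreducible ϖ) {t y z : E} (hy : InO K ϖ t y) (hz : InO K ϖ t z) :
    InO K ϖ t (y * z) := by
  obtain ⟨r, hr, h1⟩ := hy
  obtain ⟨s, hs, h2⟩ := hz
  refine ⟨r * s, not_C_dvd_mul hϖ hr hs, ?_⟩
  have e : evR R K t (r * s) * (y * z) = (evR R K t r * y) * (evR R K t s * z) := by
    rw [map_mul]; ring
  rw [e]
  exact mul_mem h1 h2

theorem InO.neg {t y : E} (hy : InO K ϖ t y) : InO K ϖ t (-y) := by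
  obtain ⟨r, hr, h1⟩ := hy
  exact ⟨r, hr, by rw [mul_neg]; exact neg_mem h1⟩

theorem InO.sub (hϖ : Irreducible ϖ) {t y z : E} (hy : InO K ϖ t y) (hz : InO K ϖ t z) :
    InO K ϖ t (y - z) := by
  rw [sub_eq_add_neg]; exact hy.add hϖ hz.neg

theorem InO.pow (hϖ : Irreducible ϖ) {t y : E} (hy : InO K ϖ t y) (n : ℕ) :
    InO K ϖ t (y ^ n) := by
  induction n with
  | zero => simpa using InO.of_mem_CInt (K := K) hϖ (one_mem (CInt R K t))
  | succ n ih => rw [pow_succ]; exact ih.mul hϖ hy

/-- the subring `O_E` of `E`. -/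
def ORing (K : Type) {R E : Type} [CommRing R] [IsDomain R] [IsDiscreteValuationRing R] [Field K]
    [Algebra R K] [Field E] [Algebra K E] {ϖ : R} (hϖ : Irreducible ϖ) (t : E) : Subring E where
  carrier := {y | InO K ϖ t y}
  mul_mem' := fun ha hb => ha.mul hϖ hb
  one_mem' := InO.of_mem_CInt hϖ (one_mem _)
  add_mem' := fun ha hb => ha.add hϖ hb
  zero_mem' := InO.of_mem_CInt hϖ (zero_mem _)
  neg_mem' := fun ha => ha.neg

theorem mem_ORing (hϖ : Irreducible ϖ) {t y : E} : y ∈ ORing K hϖ t ↔ InO K ϖ t y := Iff.rfl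

theorem CongA.refl (hϖ : Irreducible ϖ) (t y : E) : CongA K ϖ t y y :=
  ⟨0, InO.of_mem_CInt hϖ (zero_mem _), by simp⟩

theorem CongA.symm {t y z : E} (h : CongA K ϖ t y z) : CongA K ϖ t z y := by
  obtain ⟨η, h1, h2⟩ := h
  exact ⟨-η, h1.neg, by rw [mul_neg, ← h2]; ring⟩

theorem CongA.trans (hϖ : Irreducible ϖ) {t y z w : E} (h : CongA K ϖ t y z)
    (h' : CongA K ϖ t z w) : CongA K ϖ t y w := by
  obtain ⟨η, h1, h2⟩ := h
  obtain ⟨η', h1', h2'⟩ := h'
  exact ⟨η + η', h1.add hϖ h1', by rw [mul_add, ← h2, ← h2']; ring⟩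

theorem CongA.add (hϖ : Irreducible ϖ) {t y z y' z' : E} (h : CongA K ϖ t y z)
    (h' : CongA K ϖ t y' z') : CongA K ϖ t (y + y') (z + z') := by
  obtain ⟨η, h1, h2⟩ := h
  obtain ⟨η', h1', h2'⟩ := h'
  exact ⟨η + η', h1.add hϖ h1', by rw [mul_add, ← h2, ← h2']; ring⟩

theorem CongA.mul_left (hϖ : Irreducible ϖ) {t y z w : E} (hw : InO K ϖ t w)
    (h : CongA K ϖ t y z) : CongA K ϖ t (w * y) (w * z) := by
  obtain ⟨η, h1, h2⟩ := h
  exact ⟨w * η, hw.mul hϖ h1, by rw [← mul_sub, h2]; ring⟩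

end DVR

section Chart

variable {R K E : Type} [CommRing R] [IsDomain R] [IsDiscreteValuationRing R] [Field K]
  [Algebra R K] [IsFractionRing R K] [Field E] [Algebra K E]

theorem rE_injective : Function.Injective (rE R K E) :=
  (algebraMap K E).injective.comp (IsFractionRing.injective R K)

theorem evR_injective {t : E} (ht : Transcendental K t) : Function.Injective (evR R K t) := by
  rw [injective_iff_map_eq_zero]
  intro p hp
  rw [evR_eq_aeval_map] at hp
  have h1 := (transcendental_iff.1 ht) _ hp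
  exact (Polynomial.map_eq_zero_iff (IsFractionRing.injective R K)).1 h1

/-- the `R[X]`-algebra structure on `E` given by the chart `t`. -/
abbrev chartAlg (R K : Type) {E : Type} [CommRing R] [Field K] [Algebra R K] [Field E]
    [Algebra K E] (t : E) : Algebra R[X] E := (evR R K t).toAlgebra

theorem chart_faithful {t : E} (ht : Transcendental K t) :
    letI := chartAlg R K t
    FaithfulSMul R[X] E := by
  letI := chartAlg R K t
  exact (faithfulSMul_iff_algebraMap_injective R[X] E).2 (evR_injective ht)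

/-- coprime version of **(1)**. -/
theorem mem_CInt_of_mul_of_mul {t : E} (ht : Transcendental K t) {a b : R[X]}
    (hab : IsRelPrime a b) (ha : a ≠ 0) {z : E} (h1 : evR R K t a * z ∈ CInt R K t)
    (h2 : evR R K t b * z ∈ CInt R K t) : z ∈ CInt R K t := by
  letI := chartAlg R K t
  haveI := chart_faithful (R := R) ht
  exact isIntegral_of_smul_of_smul (A := R[X]) (E := E) hab ha (z := z) h1 h2

/-- **(1)**: `C_t ∩ ϖ O_E = ϖ C_t`. -/
theorem mem_CInt_of_mul_of_InO {t : E} (ht : Transcendental K t) {ϖ : R} (hϖ : Irreducible ϖ)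
    {z : E} (h1 : rE R K E ϖ * z ∈ CInt R K t) (h2 : InO K ϖ t z) : z ∈ CInt R K t := by
  obtain ⟨r, hr, h3⟩ := h2
  rw [← evR_C t] at h1
  refine mem_CInt_of_mul_of_mul ht ?_ (prime_C_unif hϖ).ne_zero h1 h3
  exact ((prime_C_unif hϖ).irreducible.isRelPrime_iff_not_dvd).2 hr

/-- evaluation `R[X] → K(t)`. -/
def evL (R K : Type) {E : Type} [CommRing R] [Field K] [Algebra R K] [Field E]
    [Algebra K E] (t : E) : R[X] →+* K⟮t⟯ :=
  eval₂RingHom ((algebraMap K K⟮t⟯).comp (algebraMap R K)) (AdjoinSimple.gen K t)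

theorem coe_evL (t : E) (p : R[X]) : ((evL R K t p : K⟮t⟯) : E) = evR R K t p := by
  have h : (algebraMap K⟮t⟯ E).comp (evL R K t) = evR R K t := by
    apply Polynomial.ringHom_ext
    · intro a
      simp [evL, evR, rE]
    · simp [evL, evR]
  exact congrArg (fun f => f p) h

/-- the `R[X]`-algebra structure on `K(t)`. -/
abbrev chartAlgL (R K : Type) {E : Type} [CommRing R] [Field K] [Algebra R K] [Field E]
    [Algebra K E] (t : E) : Algebra R[X] K⟮t⟯ := (evL R K t).toAlgebra

theorem chart_tower (t : E) :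
    letI := chartAlg R K t
    letI := chartAlgL R K t
    IsScalarTower R[X] K⟮t⟯ E := by
  letI := chartAlg R K t
  letI := chartAlgL R K t
  exact IsScalarTower.of_algebraMap_eq fun p => (coe_evL t p).symm

theorem exists_evR_eq_aeval (t : E) (r : K[X]) :
    ∃ (r' : R[X]) (a : R), a ≠ 0 ∧ aeval t r = evR R K t r' / evR R K t (C a) := by
  obtain ⟨b, hb⟩ := IsLocalization.integerNormalization_map_to_map (nonZeroDivisors R) r
  have hb0 : (b : R) ≠ 0 := nonZeroDivisors.ne_zero b.2
  refine ⟨IsLocalization.integerNormalization (nonZeroDivisors R) r, b, hb0, ?_⟩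
  have hne : evR R K t (C (b : R)) ≠ 0 := by
    rw [evR_C]
    intro h
    exact hb0 (rE_injective (K := K) (E := E) (by rw [h, map_zero]))
  rw [eq_div_iff hne, evR_C, rE_apply, evR_eq_aeval_map, hb, Algebra.smul_def, map_mul, mul_comm]
  congr 1
  simp [IsScalarTower.algebraMap_apply R K K[X]]

theorem chart_isFractionRing {t : E} (ht : Transcendental K t) :
    letI := chartAlgL R K t
    IsFractionRing R[X] K⟮t⟯ := by
  letI := chartAlgL R K t
  haveI : FaithfulSMul R[X] K⟮t⟯ := by
    rw [faithfulSMul_iff_algebraMap_injective]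
    intro p q hpq
    apply evR_injective (R := R) ht
    rw [← coe_evL, ← coe_evL]
    exact congrArg Subtype.val hpq
  apply IsFractionRing.of_field
  intro z
  obtain ⟨r, s, hrs⟩ := (mem_adjoin_simple_iff K z.1).1 z.2
  obtain ⟨r', a, -, hr⟩ := exists_evR_eq_aeval (R := R) t r
  obtain ⟨s', b, -, hs⟩ := exists_evR_eq_aeval (R := R) t s
  refine ⟨r' * C b, C a * s', ?_⟩
  apply Subtype.ext
  show z.1 = ((evL R K t (r' * C b) / evL R K t (C a * s') : K⟮t⟯) : E)
  rw [IntermediateField.coe_div, coe_evL, coe_evL, hrs, hr, hs, div_div_div_eq, map_mul, map_mul]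

theorem chart_finite [CharZero K] {t : E} (ht : Transcendental K t)
    (hfin : FiniteDimensional K⟮t⟯ E) :
    letI := chartAlg R K t
    Module.Finite R[X] (integralClosure R[X] E) := by
  letI := chartAlg R K t
  letI := chartAlgL R K t
  haveI := chart_tower (R := R) (K := K) t
  haveI := chart_isFractionRing (R := R) ht
  haveI : CharZero K⟮t⟯ := charZero_of_injective_algebraMap (algebraMap K K⟮t⟯).injective
  exact IsIntegralClosure.finite R[X] K⟮t⟯ E (integralClosure R[X] E)

/-- explicit generators of `C_t` over `R[t]`. -/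
theorem exists_generators [CharZero K] {t : E} (ht : Transcendental K t)
    (hfin : FiniteDimensional K⟮t⟯ E) :
    ∃ (n : ℕ) (b : Fin n → E), (∀ i, b i ∈ CInt R K t) ∧
      ∀ y ∈ CInt R K t, ∃ c : Fin n → R[X], y = ∑ i, evR R K t (c i) * b i := by
  letI := chartAlg R K t
  haveI := chart_finite (R := R) ht hfin
  obtain ⟨n, s, hs⟩ := Module.Finite.exists_fin (R := R[X]) (M := integralClosure R[X] E)
  refine ⟨n, fun i => (s i : E), fun i => (s i).2, ?_⟩
  intro y hy
  have hmem : (⟨y, hy⟩ : integralClosure R[X] E) ∈ Submodule.span R[X] (Set.range s) := by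
    rw [hs]; trivial
  obtain ⟨c, hc⟩ := (Submodule.mem_span_range_iff_exists_fun R[X]).1 hmem
  refine ⟨c, ?_⟩
  have := congrArg (fun z : integralClosure R[X] E => (z : E)) hc
  simp only [AddSubmonoidClass.coe_finsetSum] at this
  rw [← this]
  rfl

end Chart

end Fermat.Agent.S18
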