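import Fermat.Agent.S18.AT.Step
import Fermat.Agent.S18.AT.Inv
import Fermat.Agent.S18.AT.InvChart
import Fermat.Agent.S18.AT.Comb
import Fermat.Agent.S18.AT.AU.FinalInt

set_option autoImplicit false
set_option linter.style.haveILetI false
set_option linter.unusedSectionVars false

/-!
# S18 / AT / Normal : the special fibre of a tame cover of `ℙ¹` is normal

Context of `ACCStatement` (without `e` and without `hconst`), packaged as `IsTameP1`.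
`IntLike 𝒱 t ιt ε`: all conjugates of `ε` are in `O`, and `ε` is a root modulo `𝔪_O` of a monic polynomial with coefficients
in `R[t]`.

* `uct_int`, `chart_root_step_int` : the unramified chart theorem / Abhyankar step for `IntLike` elements;
* `normal_fin` : `IntLike 𝒱 x ιx ε → ∃ y ∈ CInt R K x, CongA K ϖ x y ε`   (`C_fin / ϖ` is integrally closed in `O_E / ϖ`);
* `normal_inf` : the same for the chart `x⁻¹`.
-/

noncomputable section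

namespace Fermat.Agent.S18

open Polynomial IntermediateField

variable {R K E : Type} [CommRing R] [IsDomain R] [IsDiscreteValuationRing R] [Field K] [CharZero K]
  [Algebra R K] [IsFractionRing R K] [Field E] [Algebra K E]

/-- all conjugates of `ε` are in `O`, and `ε` is integral over `R[t]` modulo `𝔪_O`. -/
def IntLike (𝒱 : VData R K) (t : E) (ιt : 𝒱.Ω) (ε : E) : Prop :=
  (∀ φ ∈ Emb 𝒱 t ιt, φ ε ∈ 𝒱.O) ∧
    ∃ P : R[X][X], P.Monic ∧ ∀ φ ∈ Emb 𝒱 t ιt, φ (P.eval₂ (evR R K t) ε) ∈ 𝒱.O.nonunits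

/-- version with a polynomial over `E` whose coefficients lie in `R[t]`. -/
theorem IntLike.of_lifts (𝒱 : VData R K) {t : E} {ιt : 𝒱.Ω} {ε : E}
    (h1 : ∀ φ ∈ Emb 𝒱 t ιt, φ ε ∈ 𝒱.O) (P : E[X]) (hP : P.Monic)
    (hl : ∀ n, P.coeff n ∈ Set.range (evR R K t))
    (h2 : ∀ φ ∈ Emb 𝒱 t ιt, φ (P.eval ε) ∈ 𝒱.O.nonunits) : IntLike 𝒱 t ιt ε := by
  have hl' : P ∈ lifts (evR R K t) := (lifts_iff_coeff_lifts P).2 hl
  obtain ⟨q, hq, -, hqm⟩ := lifts_and_natDegree_eq_and_monic hl' hP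
  refine ⟨h1, q, hqm, ?_⟩
  intro φ hφ
  rw [← eval_map, hq]
  exact h2 φ hφ

theorem IdemLike.intLike (𝒱 : VData R K) {t : E} {ιt : 𝒱.Ω} {ε : E} (h : IdemLike 𝒱 t ιt ε) :
    IntLike 𝒱 t ιt ε := by
  have h1 : ∀ φ ∈ Emb 𝒱 t ιt, φ ε ∈ 𝒱.O := by
    intro φ hφ
    rcases h φ hφ with h7 | h7
    · exact mem_of_mem_nonunits _ h7
    · have := 𝒱.O.add_mem _ _ (mem_of_mem_nonunits _ h7) 𝒱.O.one_mem
      simpa using this
  refine ⟨h1, X ^ 2 - X, monic_X_pow_sub (by simp), ?_⟩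
  intro φ hφ
  have h6 : φ (eval₂ (evR R K t) ε (X ^ 2 - X : R[X][X])) = φ ε * (φ ε - 1) := by
    simp only [eval₂_sub, eval₂_pow, eval₂_X, map_sub, map_pow]; ring
  rw [h6]
  rcases h φ hφ with h7 | h7
  · exact mul_mem_nonunits' _ h7 (𝒱.O.sub_mem (h1 φ hφ) 𝒱.O.one_mem)
  · exact mul_mem_nonunits _ (h1 φ hφ) h7

open ChartAux in
/-- **unramified chart theorem** for `IntLike` elements. -/
theorem uct_int (𝒱 : VData R K) {ϖ : R} (hϖ : Irreducible ϖ) {t : E} {ιt : 𝒱.Ω}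
    (h : IsChart 𝒱 t ιt) (𝕜 : Type) [Field 𝕜] [IsAlgClosed 𝕜] [CharZero 𝕜] (jK : K →+* 𝕜)
    (W : R[X]) (hW : HorUnram 𝕜 jK t W) (ε : E) (hε : IntLike 𝒱 t ιt ε) :
    ∃ (k : ℕ) (y : E), y ∈ CInt R K t ∧ CongA K ϖ t y (evR R K t W ^ k * ε) := by
  have hinj := evF_injective_of_isGauss 𝒱 h.gauss
  letI := chartAlg R K t
  letI := chartAlgL R K t
  haveI := chart_tower (R := R) (K := K) t
  haveI := chart_isFractionRing (R := R) h.trans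
  letI := tgtAlg R 𝒱.ιK ιt
  letI := tgtAlgL R h.trans 𝒱.ιK ιt hinj
  haveI := tgt_tower h.trans 𝒱.ιK ιt hinj
  haveI := h.fin
  haveI : CharZero K⟮t⟯ := charZero_of_injective_algebraMap (algebraMap K K⟮t⟯).injective
  have hG := gaussA_of_isGauss 𝒱 hϖ h.gauss
  obtain ⟨hε1, P, hPm, hP⟩ := hε
  have hε' : AU.IntL R[X] K⟮t⟯ 𝒱.O ε :=
    ⟨(intO_iff 𝒱 h ε).2 hε1, P, hPm,
      (mem_Emb_iff 𝒱 h (fun φ => φ (P.eval₂ (evR R K t) ε) ∈ 𝒱.O.nonunits)).1 hP⟩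
  obtain ⟨k, y, η, hy, hη, hyη⟩ := AU.auct_int (L := K⟮t⟯) (prime_C_unif hϖ)
    (quot_isPrincipalIdealRing hϖ) hG (dRed 𝒱 h) W (by
      intro m hm hmW hmp
      obtain ⟨c', h0, h1, h2⟩ := exists_root_of_prime hϖ 𝕜 jK hm hmp
      obtain ⟨ιs, hord, hl⟩ := hW c' (fun hc => hmW (h2 W hc))
      exact horAt_of_chart h.trans 𝕜 jK h0 h1 h2 hord hl) (ε := ε) hε'
  refine ⟨k, y, hy, η, locInt_iff.1 hη, ?_⟩
  rw [Algebra.smul_def, Algebra.smul_def, map_pow] at hyη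
  rw [← evR_C t]
  exact hyη

/-- **Abhyankar step** for `IntLike` elements. -/
theorem chart_root_step_int (𝒱 : VData R K) {ϖ : R} (hϖ : Irreducible ϖ) {t : E} {ιt : 𝒱.Ω}
    (h : IsChart 𝒱 t ιt) (𝕜 : Type) [Field 𝕜] [IsAlgClosed 𝕜] [CharZero 𝕜] (jK : K →+* 𝕜)
    {c₀ : R} {n : ℕ} (hn : IsUnit (n : R))
    (hirr : Irreducible (X ^ n - C (t - rE R K E c₀) : E[X])) (W₁ : R[X])
    (hW : HorUnram 𝕜 jK t ((X - C c₀) * W₁))
    (h₀ : ∃ ιs : LaurentSeries 𝕜, (ιs - HahnSeries.C (jK (algebraMap R K c₀))).order = (n : ℤ) ∧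
      LandsIn 𝕜 jK t ιs)
    (ε : E) (hε : IntLike 𝒱 t ιt ε) :
    ∃ (k : ℕ) (y : E), y ∈ CInt R K t ∧ CongA K ϖ t y (evR R K t W₁ ^ k * ε) := by
  have hn0 : n ≠ 0 := by
    rintro rfl
    simp at hn
  have := Fact.mk hirr
  have hγ := Step.isRootExt_adjoinRoot (K := K) t c₀ n
  obtain ⟨ιγ, hιγ⟩ := IsAlgClosed.exists_pow_nat_eq (ιt - 𝒱.ιK (algebraMap R K c₀))
    (Nat.pos_of_ne_zero hn0)
  have hch := isChart_root 𝒱 h hn hγ hιγ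
  have hhor := horUnram_root 𝕜 jK hn0 hγ W₁ hW h₀
  obtain ⟨hε1, P, hPm, hP⟩ := hε
  have hcomp : (evR R K (AdjoinRoot.root (X ^ n - C (t - rE R K E c₀) : E[X]))).comp
      (compRingHom (X ^ n + C c₀ : R[X])) =
      (algebraMap E (AdjoinRoot (X ^ n - C (t - rE R K E c₀) : E[X]))).comp (evR R K t) := by
    apply RingHom.ext
    intro W
    exact Step.evR_comp hγ.pow_eq W
  have hε' : IntLike 𝒱 (AdjoinRoot.root (X ^ n - C (t - rE R K E c₀) : E[X])) ιγ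
      (algebraMap E (AdjoinRoot (X ^ n - C (t - rE R K E c₀) : E[X])) ε) := by
    refine ⟨fun φ hφ => hε1 _ (comp_mem_Emb 𝒱 hγ hιγ hφ),
      P.map (compRingHom (X ^ n + C c₀ : R[X])), hPm.map _, ?_⟩
    intro φ hφ
    rw [eval₂_map, hcomp, ← hom_eval₂]
    exact hP _ (comp_mem_Emb 𝒱 hγ hιγ hφ)
  obtain ⟨k, y', hy', hc⟩ := uct_int 𝒱 hϖ hch 𝕜 jK _ hhor _ hε'
  rw [Step.evR_comp hγ.pow_eq, ← map_pow, ← map_mul] at hc
  obtain ⟨y, hy, hyc⟩ := transfer 𝒱 hϖ h hn hγ _ y' hy' hc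
  exact ⟨k, y, hy, hyc⟩

/-- the hypotheses of `ACCStatement` on `(E, x)` (without `e` and `hconst`): a cover of `ℙ¹_R`, generically étale on the special
fibre, tamely branched (in characteristic `0`) over `0, c, ∞` only. -/
structure IsTameP1 (𝒱 : VData R K) (x : E) (ιx : 𝒱.Ω) (𝕜 : Type) [Field 𝕜] (jK : K →+* 𝕜) (c : R)
    (e0 ec einf : ℕ) : Prop where
  chart : IsChart 𝒱 x ιx
  hc : IsUnit c
  he0 : IsUnit (e0 : R)
  hec : IsUnit (ec : R)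
  heinf : IsUnit (einf : R)
  hirr0 : Irreducible (X ^ e0 - C x : E[X])
  hirrc : Irreducible (X ^ ec - C (x - algebraMap K E (algebraMap R K c)) : E[X])
  hirrinf : Irreducible (X ^ einf - C x⁻¹ : E[X])
  Hgen : ∀ c' : 𝕜, c' ≠ 0 → c' ≠ jK (algebraMap R K c) →
      ∃ ιs : LaurentSeries 𝕜, (ιs - HahnSeries.C c').order = 1 ∧ LandsIn 𝕜 jK x ιs
  H0 : ∃ ιs : LaurentSeries 𝕜, ιs.order = (e0 : ℤ) ∧ LandsIn 𝕜 jK x ιs
  Hc : ∃ ιs : LaurentSeries 𝕜, (ιs - HahnSeries.C (jK (algebraMap R K c))).order = (ec : ℤ) ∧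
      LandsIn 𝕜 jK x ιs
  Hinf : ∃ ιs : LaurentSeries 𝕜, ιs.order = -(einf : ℤ) ∧ LandsIn 𝕜 jK x ιs

namespace IsTameP1

variable {𝒱 : VData R K} {x : E} {ιx : 𝒱.Ω} {𝕜 : Type} [Field 𝕜] {jK : K →+* 𝕜} {c : R}
  {e0 ec einf : ℕ}

theorem x_ne_zero (H : IsTameP1 𝒱 x ιx 𝕜 jK c e0 ec einf) : x ≠ 0 := by
  rintro rfl
  exact H.chart.trans isAlgebraic_zero

theorem hor1 (H : IsTameP1 𝒱 x ιx 𝕜 jK c e0 ec einf) :
    HorUnram 𝕜 jK x ((X - C 0) * (X - C c)) := by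
  intro c' hc'
  have h2 : c' ≠ 0 ∧ c' ≠ jK (algebraMap R K c) := by
    simp only [Polynomial.map_mul, Polynomial.map_sub, map_X, map_C, eval_mul, eval_sub, eval_X,
      eval_C, map_zero, sub_zero, RingHom.comp_apply] at hc'
    exact ⟨left_ne_zero_of_mul hc', sub_ne_zero.1 (right_ne_zero_of_mul hc')⟩
  exact H.Hgen c' h2.1 h2.2

theorem hor2 (H : IsTameP1 𝒱 x ιx 𝕜 jK c e0 ec einf) : HorUnram 𝕜 jK x ((X - C c) * X) := by
  intro c' hc'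
  have h2 : c' ≠ 0 ∧ c' ≠ jK (algebraMap R K c) := by
    simp only [Polynomial.map_mul, Polynomial.map_sub, map_X, map_C, eval_mul, eval_sub, eval_X,
      eval_C, RingHom.comp_apply] at hc'
    exact ⟨right_ne_zero_of_mul hc', sub_ne_zero.1 (left_ne_zero_of_mul hc')⟩
  exact H.Hgen c' h2.1 h2.2

end IsTameP1

variable {𝒱 : VData R K} {x : E} {ιx : 𝒱.Ω} {𝕜 : Type} [Field 𝕜] [IsAlgClosed 𝕜] [CharZero 𝕜]
  {jK : K →+* 𝕜} {c : R} {e0 ec einf : ℕ}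

/-- **`C_fin / ϖ` is integrally closed** in `O_E / ϖ`. -/
theorem normal_fin (H : IsTameP1 𝒱 x ιx 𝕜 jK c e0 ec einf) {ϖ : R} (hϖ : Irreducible ϖ) {ε : E}
    (hε : IntLike 𝒱 x ιx ε) : ∃ y ∈ CInt R K x, CongA K ϖ x y ε := by
  obtain ⟨k₁, y₁, hy₁, cy₁⟩ := chart_root_step_int 𝒱 hϖ H.chart 𝕜 jK (c₀ := 0) H.he0
    (by simpa using H.hirr0) (X - C c) H.hor1 (by simpa using H.H0) ε hε
  obtain ⟨k₂, y₂, hy₂, cy₂⟩ := chart_root_step_int 𝒱 hϖ H.chart 𝕜 jK (c₀ := c) H.hec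
    (by simpa [rE] using H.hirrc) X H.hor2 H.Hc ε hε
  have hcop1 : IsCoprime ((X - C c : R[X]) ^ k₁) (X ^ k₂) := by
    apply IsCoprime.pow
    obtain ⟨u, hu⟩ := H.hc
    refine ⟨-C (↑u⁻¹ : R), C (↑u⁻¹ : R), ?_⟩
    have : (C (↑u⁻¹ : R) * C c : R[X]) = 1 := by
      rw [← C_mul, ← hu, Units.inv_mul, C_1]
    linear_combination this
  exact cong_of_isCoprime hϖ hcop1 hy₁ hy₂ (by simpa using cy₁) (by simpa using cy₂)

/-- if `ε` is `IntLike` for the chart `x⁻¹` then `x ^ N * ε` is `IntLike` for the chart `x`, `N ≫ 0`. -/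
theorem IntLike.mul_pow_of_inv (hch : IsChart 𝒱 x ιx) {ε : E} (hε : IntLike 𝒱 x⁻¹ ιx⁻¹ ε) :
    ∃ N : ℕ, IntLike 𝒱 x ιx (x ^ N * ε) := by
  have hx0 : x ≠ 0 := by
    rintro rfl
    exact hch.trans isAlgebraic_zero
  obtain ⟨hε1, P, hPm, hP⟩ := hε
  rw [emb_inv 𝒱 hx0] at hε1 hP
  set N : ℕ := P.support.sup fun j => (P.coeff j).natDegree with hN
  have hιx : ∀ φ ∈ Emb 𝒱 x ιx, φ x ∈ 𝒱.O := fun φ hφ => by rw [hφ.2]; exact hch.gauss.1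
  refine ⟨N, IntLike.of_lifts 𝒱 ?_ ((P.map (evR R K x⁻¹)).scaleRoots (x ^ N))
    ((monic_scaleRoots_iff _).2 (hPm.map _)) ?_ ?_⟩
  · intro φ hφ
    rw [map_mul, map_pow]
    exact 𝒱.O.mul_mem _ _ (𝒱.O.pow_mem (hιx φ hφ) _) (hε1 φ hφ)
  · intro n
    rw [coeff_scaleRoots, coeff_map, hPm.natDegree_map]
    rcases lt_trichotomy n P.natDegree with hn | hn | hn
    · have hdeg : (P.coeff n).natDegree ≤ N := by
        by_cases h0 : P.coeff n = 0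
        · rw [h0]; simp
        · exact Finset.le_sup (f := fun j => (P.coeff j).natDegree) (mem_support_iff.2 h0)
      have h1 := evR_mul_inv_pow (R := R) (K := K) (inv_ne_zero hx0) (P.coeff n) hdeg
      rw [inv_inv] at h1
      obtain ⟨d, hd⟩ : ∃ d, P.natDegree - n = d + 1 := ⟨P.natDegree - n - 1, by omega⟩
      refine ⟨reflect N (P.coeff n) * X ^ (N * d), ?_⟩
      rw [map_mul, ← h1, map_pow, evR_X, hd, ← pow_mul, mul_assoc, ← pow_add]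
      congr 2
      ring
    · refine ⟨1, ?_⟩
      rw [hn, hPm.coeff_natDegree]
      simp
    · refine ⟨0, ?_⟩
      rw [coeff_eq_zero_of_natDegree_lt hn]
      simp
  · intro φ hφ
    have h2 : ((P.map (evR R K x⁻¹)).scaleRoots (x ^ N)).eval (x ^ N * ε) =
        (x ^ N) ^ (P.map (evR R K x⁻¹)).natDegree * P.eval₂ (evR R K x⁻¹) ε := by
      have := scaleRoots_eval₂_mul (p := P.map (evR R K x⁻¹)) (RingHom.id E) ε (x ^ N)
      simp only [RingHom.id_apply, eval₂_id] at this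
      rw [this, eval_map]
    rw [h2, map_mul, map_pow, map_pow]
    exact mul_mem_nonunits _ (𝒱.O.pow_mem (𝒱.O.pow_mem (hιx φ hφ) _) _) (hP φ hφ)

/-- **`C_inf / ϖ` is integrally closed** in `O_E / ϖ`. -/
theorem normal_inf (H : IsTameP1 𝒱 x ιx 𝕜 jK c e0 ec einf) {ϖ : R} (hϖ : Irreducible ϖ) {ε : E}
    (hε : IntLike 𝒱 x⁻¹ ιx⁻¹ ε) : ∃ y ∈ CInt R K x⁻¹, CongA K ϖ x y ε := by
  have hx0 := H.x_ne_zero
  have hchart' : IsChart 𝒱 x⁻¹ ιx⁻¹ := isChart_inv 𝒱 H.chart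
  obtain ⟨k₃, y₃, hy₃, cy₃⟩ := chart_root_step_int 𝒱 hϖ hchart' 𝕜 jK (c₀ := 0) H.heinf
    (by simpa using H.hirrinf) (C c * X - 1) (horUnram_inv 𝕜 jK c H.hor1) (hinf_inv 𝕜 jK H.Hinf)
    ε hε
  obtain ⟨N, hN⟩ := hε.mul_pow_of_inv H.chart
  obtain ⟨yf, hyf, cyf⟩ := normal_fin H hϖ hN
  obtain ⟨k₀, hk₀⟩ := fin_to_inf_ge (R := R) (K := K) hx0 hyf
  have hy₄ := hk₀ (k₀ + N) (Nat.le_add_right _ _)
  have cy₄ : CongA K ϖ x⁻¹ (x⁻¹ ^ (k₀ + N) * yf) (evR R K x⁻¹ (X ^ k₀) * ε) := by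
    have h3 : CongA K ϖ x⁻¹ yf (x ^ N * ε) := (CongA_inv_iff hϖ hx0).2 cyf
    have h4 := h3.mul_left hϖ (w := evR R K x⁻¹ (X ^ (k₀ + N)))
      (InO.of_mem_CInt hϖ (evR_mem_CInt _ _))
    have h5 : evR R K x⁻¹ (X ^ (k₀ + N)) * (x ^ N * ε) = evR R K x⁻¹ (X ^ k₀) * ε := by
      rw [map_pow, map_pow, evR_X, pow_add, mul_assoc, ← mul_assoc (x⁻¹ ^ N), ← mul_pow,
        inv_mul_cancel₀ hx0, one_pow, one_mul]
    rw [h5] at h4
    simpa [evR_X] using h4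
  have hcop2 : IsCoprime ((C c * X - 1 : R[X]) ^ k₃) (X ^ k₀) := by
    apply IsCoprime.pow
    exact ⟨-1, C c, by ring⟩
  obtain ⟨yi, hyi, cyi⟩ := cong_of_isCoprime hϖ hcop2 hy₃ hy₄ (by simpa using cy₃) cy₄
  exact ⟨yi, hyi, (CongA_inv_iff hϖ hx0).1 cyi⟩

end Fermat.Agent.S18
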