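import Fermat.Agent.S18.AT.Defs
import Fermat.Agent.S18.AT.Val

set_option autoImplicit false
set_option linter.unusedSectionVars false
set_option linter.style.haveILetI false

/-!
# S18 / AT / Root : the chart hypotheses pass to `E' = E(γ)`, `γ ^ n = t - c₀`   (task AT-Root)

Four independent parts (`n ≠ 0` because `(n : R)` is a unit and `R` is nontrivial):
* `trans`: if `γ` were algebraic over `K`, so would be `algebraMap E E' t = γ ^ n + c₀`, hence `t`.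
* `fin`: `E'/E` is finite (`finrank = n ≠ 0`), `E / K(t)` finite, `algebraMap t ∈ K(γ)`.  One route:
  `E'` is generated over `K` by finitely many elements `γ, b_i` with `b_i` algebraic over `K(γ)`;
  or: `Algebra.IsAlgebraic K⟮γ⟯ E'` + `E' = K⟮γ⟯(finite set)` (`IntermediateField.finiteDimensional_adjoin`
  / `essFiniteType`); any route is fine.
* `gauss`: `ιγ ∈ O` since `ιγ ^ n ∈ O` (valuation rings are integrally closed; `ValuationSubring` :
  `mem_or_inv_mem`).  If `Q(ιγ)` is a nonunit and `Q` has a unit coefficient, then in the residue field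
  `k_O` of `O` the class `γ̄` is algebraic over the image of `κ = R/ϖ`, hence so is
  `t̄ = γ̄ ^ n + c̄₀`; lifting an annihilating polynomial to `R[X]` contradicts `IsGauss 𝒱 ιt`.
* `dred`: `φ ≠ φ'` in `Emb 𝒱 γ ιγ` have different restrictions to `E` (they agree at `γ`, and
  `E⟮γ⟯ = ⊤`); the restrictions lie in `Emb 𝒱 t ιt`; use the `y` given there.
-/

noncomputable section

namespace Fermat.Agent.S18

open Polynomial IntermediateField

variable {R K E E' : Type} [CommRing R] [IsDomain R] [IsDiscreteValuationRing R] [Field K]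
  [CharZero K] [Algebra R K] [IsFractionRing R K] [Field E] [Algebra K E] [Field E'] [Algebra K E']
  [Algebra E E'] [IsScalarTower K E E']

/-- restriction of embeddings. -/
theorem comp_mem_Emb (𝒱 : VData R K) {t : E} {ιt : 𝒱.Ω} {c₀ : R} {n : ℕ} {γ : E'}
    (hγ : IsRootExt K t c₀ n γ) {ιγ : 𝒱.Ω} (hι : ιγ ^ n = ιt - 𝒱.ιK (algebraMap R K c₀))
    {φ : E' →+* 𝒱.Ω} (hφ : φ ∈ Emb 𝒱 γ ιγ) : φ.comp (algebraMap E E') ∈ Emb 𝒱 t ιt := by
  obtain ⟨h1, h2⟩ := hφ
  have hK : ∀ a : K, φ (algebraMap E E' (algebraMap K E a)) = 𝒱.ιK a := by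
    intro a
    rw [← IsScalarTower.algebraMap_apply K E E']
    exact RingHom.congr_fun h1 a
  refine ⟨?_, ?_⟩
  · ext a
    exact hK a
  · have h3 := congrArg φ hγ.pow_eq
    rw [map_pow, h2, hι, map_sub, map_sub] at h3
    have h4 : φ (algebraMap E E' (rE R K E c₀)) = 𝒱.ιK (algebraMap R K c₀) := hK _
    rw [h4] at h3
    exact (sub_left_injective h3).symm

namespace Root

theorem n_ne_zero {n : ℕ} (hn : IsUnit (n : R)) : n ≠ 0 := by
  rintro rfl
  simp at hn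

theorem algebraMap_t {t : E} {c₀ : R} {n : ℕ} {γ : E'} (hγ : IsRootExt K t c₀ n γ) :
    algebraMap E E' t = γ ^ n + algebraMap K E' (algebraMap R K c₀) := by
  rw [hγ.pow_eq, map_sub, IsScalarTower.algebraMap_apply K E E']
  simp [rE]

theorem trans {t : E} (ht : Transcendental K t) {c₀ : R} {n : ℕ} {γ : E'}
    (hγ : IsRootExt K t c₀ n γ) : Transcendental K γ := by
  intro halg
  apply ht
  have h1 : IsAlgebraic K (algebraMap E E' t) := by
    rw [algebraMap_t hγ]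
    exact (halg.pow n).add (isAlgebraic_algebraMap _)
  exact (isAlgebraic_algebraMap_iff (algebraMap E E').injective).mp h1

theorem map_le {t : E} {c₀ : R} {n : ℕ} {γ : E'} (hγ : IsRootExt K t c₀ n γ) (z : E)
    (hz : z ∈ K⟮t⟯) : algebraMap E E' z ∈ K⟮γ⟯ := by
  have h1 : (K⟮t⟯).map (IsScalarTower.toAlgHom K E E') ≤ K⟮γ⟯ := by
    rw [IntermediateField.adjoin_map, Set.image_singleton, IntermediateField.adjoin_simple_le_iff]
    show algebraMap E E' t ∈ K⟮γ⟯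
    rw [algebraMap_t hγ]
    exact add_mem (pow_mem (mem_adjoin_simple_self K γ) n) (IntermediateField.algebraMap_mem _ _)
  exact h1 ⟨z, hz, rfl⟩

theorem fin {t : E} (hfin : FiniteDimensional K⟮t⟯ E) {c₀ : R} {n : ℕ} (hn : n ≠ 0) {γ : E'}
    (hγ : IsRootExt K t c₀ n γ) : FiniteDimensional K⟮γ⟯ E' := by
  have h1 : FiniteDimensional E E' :=
    FiniteDimensional.of_finrank_pos (by rw [hγ.finrank_eq]; exact Nat.pos_of_ne_zero hn)
  have h2 : Module.Finite K⟮t⟯ E' := Module.Finite.trans E E'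
  let f : K⟮t⟯ →+* K⟮γ⟯ :=
    { toFun := fun z => ⟨algebraMap E E' z.1, map_le hγ z.1 z.2⟩
      map_one' := Subtype.ext (by simp)
      map_mul' := fun a b => Subtype.ext (by simp)
      map_zero' := Subtype.ext (by simp)
      map_add' := fun a b => Subtype.ext (by simp) }
  letI : Algebra K⟮t⟯ K⟮γ⟯ := f.toAlgebra
  haveI : IsScalarTower K⟮t⟯ K⟮γ⟯ E' := IsScalarTower.of_algebraMap_eq (fun x => rfl)
  exact Module.Finite.of_restrictScalars_finite K⟮t⟯ K⟮γ⟯ E'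

/-- `R → O`. -/
def toO (𝒱 : VData R K) : R →+* 𝒱.O :=
  (𝒱.ιK.comp (algebraMap R K)).codRestrict 𝒱.O.toSubring 𝒱.map_mem

theorem coe_toO (𝒱 : VData R K) (r : R) : ((toO 𝒱 r : 𝒱.O) : 𝒱.Ω) = 𝒱.ιK (algebraMap R K r) := rfl

instance isLocalHom_toO (𝒱 : VData R K) : IsLocalHom (toO 𝒱) := by
  constructor
  intro r hr
  by_contra hcon
  have h1 := 𝒱.map_nonunit r hcon
  rw [ValuationSubring.mem_nonunits_iff_exists_mem_maximalIdeal] at h1
  obtain ⟨ha, hm⟩ := h1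
  rw [IsLocalRing.mem_maximalIdeal, mem_nonunits_iff] at hm
  exact hm hr

theorem coe_eval₂_toO (𝒱 : VData R K) (Q : R[X]) (a : 𝒱.O) :
    ((Q.eval₂ (toO 𝒱) a : 𝒱.O) : 𝒱.Ω) = Q.eval₂ (𝒱.ιK.comp (algebraMap R K)) (a : 𝒱.Ω) := by
  have := Polynomial.hom_eval₂ Q (toO 𝒱) 𝒱.O.subtype a
  exact this

/-- the residue class of `Q(a)`. -/
theorem residue_eval₂ (𝒱 : VData R K) (Q : R[X]) (a : 𝒱.O) :
    IsLocalRing.residue 𝒱.O (Q.eval₂ (toO 𝒱) a) =
      (Q.map (IsLocalRing.residue R)).eval₂ (IsLocalRing.ResidueField.map (toO 𝒱))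
        (IsLocalRing.residue 𝒱.O a) := by
  rw [Polynomial.hom_eval₂, Polynomial.eval₂_map]
  rfl

theorem mem_nonunits_iff_residue (𝒱 : VData R K) (a : 𝒱.O) :
    (a : 𝒱.Ω) ∈ 𝒱.O.nonunits ↔ IsLocalRing.residue 𝒱.O a = 0 := by
  rw [IsLocalRing.residue_eq_zero_iff, ValuationSubring.mem_nonunits_iff_exists_mem_maximalIdeal]
  constructor
  · rintro ⟨_, h⟩
    exact h
  · intro h
    exact ⟨a.2, h⟩

/-- `IsGauss` in terms of the residue field: the class of `ιx` is transcendental over `κ`. -/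
theorem isGauss_iff (𝒱 : VData R K) (a : 𝒱.O) :
    IsGauss 𝒱 (a : 𝒱.Ω) ↔ ∀ P : (IsLocalRing.ResidueField R)[X],
      P.eval₂ (IsLocalRing.ResidueField.map (toO 𝒱)) (IsLocalRing.residue 𝒱.O a) = 0 → P = 0 := by
  constructor
  · rintro ⟨-, h⟩ P hP
    obtain ⟨Q, rfl⟩ := Polynomial.map_surjective _ IsLocalRing.residue_surjective P
    rw [← residue_eval₂, ← mem_nonunits_iff_residue, coe_eval₂_toO] at hP
    have h1 := h Q hP
    ext i
    rw [coeff_map, coeff_zero, IsLocalRing.residue_eq_zero_iff, IsLocalRing.mem_maximalIdeal,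
      mem_nonunits_iff]
    exact h1 i
  · intro h
    refine ⟨a.2, fun Q hQ i hi => ?_⟩
    rw [← coe_eval₂_toO, mem_nonunits_iff_residue, residue_eval₂] at hQ
    have h1 := h _ hQ
    have h2 := congrArg (fun P => P.coeff i) h1
    simp only [coeff_map, coeff_zero] at h2
    rw [IsLocalRing.residue_eq_zero_iff, IsLocalRing.mem_maximalIdeal, mem_nonunits_iff] at h2
    exact h2 hi

theorem gauss (𝒱 : VData R K) {ιt : 𝒱.Ω} (h : IsGauss 𝒱 ιt) {c₀ : R} {n : ℕ} (hn : n ≠ 0)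
    {ιγ : 𝒱.Ω} (hι : ιγ ^ n = ιt - 𝒱.ιK (algebraMap R K c₀)) : IsGauss 𝒱 ιγ := by
  have hγO : ιγ ∈ 𝒱.O := by
    apply mem_of_pow_mem 𝒱.O hn
    rw [hι]
    exact 𝒱.O.sub_mem h.1 (𝒱.map_mem c₀)
  let a : 𝒱.O := ⟨ιt, h.1⟩
  let b : 𝒱.O := ⟨ιγ, hγO⟩
  have hab : a = b ^ n + toO 𝒱 c₀ := by
    apply Subtype.ext
    show ιt = ιγ ^ n + 𝒱.ιK (algebraMap R K c₀)
    rw [hι]
    ring
  have h1 := (isGauss_iff 𝒱 a).mp h
  refine (isGauss_iff 𝒱 b).mpr ?_
  letI : Algebra (IsLocalRing.ResidueField R) (IsLocalRing.ResidueField 𝒱.O) :=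
    (IsLocalRing.ResidueField.map (toO 𝒱)).toAlgebra
  intro P hP
  by_contra hP0
  have halg : IsAlgebraic (IsLocalRing.ResidueField R) (IsLocalRing.residue 𝒱.O b) :=
    ⟨P, hP0, hP⟩
  have halg2 : IsAlgebraic (IsLocalRing.ResidueField R) (IsLocalRing.residue 𝒱.O a) := by
    rw [hab, map_add, map_pow]
    refine (halg.pow n).add ?_
    have : IsLocalRing.residue 𝒱.O (toO 𝒱 c₀) =
        algebraMap (IsLocalRing.ResidueField R) (IsLocalRing.ResidueField 𝒱.O)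
          (IsLocalRing.residue R c₀) := rfl
    rw [this]
    exact isAlgebraic_algebraMap _
  obtain ⟨P', hP'0, hP'⟩ := halg2
  exact hP'0 (h1 P' hP')

theorem eq_of_comp_eq {Ω : Type} [Field Ω] {γ : E'} (hγ : E⟮γ⟯ = ⊤) {φ φ' : E' →+* Ω}
    (h1 : φ.comp (algebraMap E E') = φ'.comp (algebraMap E E')) (h2 : φ γ = φ' γ) : φ = φ' := by
  ext y
  have hy : y ∈ E⟮γ⟯ := by rw [hγ]; exact IntermediateField.mem_top
  induction hy using IntermediateField.adjoin_induction with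
  | mem x hx =>
    rw [Set.mem_singleton_iff] at hx
    rw [hx]
    exact h2
  | algebraMap x => exact RingHom.congr_fun h1 x
  | add x y _ _ hx hy => rw [map_add, map_add, hx, hy]
  | inv x _ hx => rw [map_inv₀, map_inv₀, hx]
  | mul x y _ _ hx hy => rw [map_mul, map_mul, hx, hy]

theorem dred (𝒱 : VData R K) {t : E} {ιt : 𝒱.Ω} (h : DistinctRed 𝒱 t ιt) {c₀ : R} {n : ℕ}
    {γ : E'} (hγ : IsRootExt K t c₀ n γ) {ιγ : 𝒱.Ω}
    (hι : ιγ ^ n = ιt - 𝒱.ιK (algebraMap R K c₀)) : DistinctRed 𝒱 γ ιγ := by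
  intro φ hφ φ' hφ' hne
  have hne' : φ.comp (algebraMap E E') ≠ φ'.comp (algebraMap E E') := by
    intro heq
    exact hne (eq_of_comp_eq hγ.adjoin_eq heq (hφ.2.trans hφ'.2.symm))
  obtain ⟨y, hy1, hy2⟩ := h _ (comp_mem_Emb 𝒱 hγ hι hφ) _ (comp_mem_Emb 𝒱 hγ hι hφ') hne'
  exact ⟨algebraMap E E' y, fun ψ hψ => hy1 _ (comp_mem_Emb 𝒱 hγ hι hψ), hy2⟩

end Root

theorem isChart_root (𝒱 : VData R K) {t : E} {ιt : 𝒱.Ω} (h : IsChart 𝒱 t ιt) {c₀ : R} {n : ℕ}
    (hn : IsUnit (n : R)) {γ : E'} (hγ : IsRootExt K t c₀ n γ) {ιγ : 𝒱.Ω}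
    (hι : ιγ ^ n = ιt - 𝒱.ιK (algebraMap R K c₀)) : IsChart 𝒱 γ ιγ where
  trans := Root.trans h.trans hγ
  fin := Root.fin h.fin (Root.n_ne_zero hn) hγ
  gauss := Root.gauss 𝒱 h.gauss (Root.n_ne_zero hn) hι
  dred := Root.dred 𝒱 h.dred hγ hι

end Fermat.Agent.S18
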