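import Fermat.Agent.S18.AT.Chart
import Fermat.Agent.S18.AT.Root
import Fermat.Agent.S18.AT.InO

set_option autoImplicit false

/-!
# S18 / AT / Transfer : descent along `E' = E(γ) / E` by `ρ = (1/n) Tr`   (task AT-Transfer)

SKETCH.  `ρ y' := rE (n⁻¹) * Algebra.trace E E' y'` (`n⁻¹ ∈ R` from `hn`).  `E'/E` finite (finrank `n ≠ 0`),
separable (char 0).
* `ρ (algebraMap z) = z` (`Algebra.trace_algebraMap`, `finrank = n`).
* `y' ∈ CInt R K γ ⟹ ρ y' ∈ CInt R K t`:  `γ` is integral over `R[t]` (root of `X^n - (t - c₀)`), so every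
  element of `R[γ]` is, so `y'` is integral over `R[t]` (transitivity: `RingHom.IsIntegralElem` /
  `isIntegral_trans`; use `letI : Algebra R[X] E := (evR R K t).toAlgebra`,
  `Algebra R[X] E' := ((algebraMap E E').comp (evR R K t)).toAlgebra`), then
  `Algebra.isIntegral_trace`.
* `InO K ϖ γ η' ⟹ InO K ϖ t (ρ η')`: by `inO_iff_mem_OInt` for `(E, t, ιt)` it suffices that
  `φ (trace η') ∈ O` for `φ ∈ Emb 𝒱 t ιt`.  With `letI : Algebra E 𝒱.Ω := φ.toAlgebra`,
  `trace_eq_sum_embeddings 𝒱.Ω` gives `φ (trace η') = ∑ σ : E' →ₐ[E] Ω, σ η'`.  For each `σ`,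
  `ιγ := σ γ` satisfies `ιγ ^ n = ιt - ιK c₀`, `σ ∈ Emb 𝒱 γ ιγ`, and `isChart_root` +
  `inO_iff_mem_OInt` for `(E', γ, ιγ)` give `σ η' ∈ O`  (`InO K ϖ γ η'` does not depend on `ιγ`!).
* conclude: `y' - z = ϖ η'` ⟹ `ρ y' - z = ϖ ρ η'`.
-/

noncomputable section

namespace Fermat.Agent.S18

open Polynomial IntermediateField

variable {R K E E' : Type} [CommRing R] [IsDomain R] [IsDiscreteValuationRing R] [Field K]
  [CharZero K] [Algebra R K] [IsFractionRing R K] [Field E] [Algebra K E] [Field E'] [Algebra K E']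
  [Algebra E E'] [IsScalarTower K E E']

namespace Transfer

omit [IsDomain R] [IsDiscreteValuationRing R] [CharZero K] [IsFractionRing R K] in
theorem rE_tower (a : R) : rE R K E' a = algebraMap E E' (rE R K E a) := by
  rw [rE_apply, rE_apply, ← IsScalarTower.algebraMap_apply K E E']

omit [IsDomain R] [IsDiscreteValuationRing R] [CharZero K] [IsFractionRing R K] in
/-- the trace of an element integral over `R[γ]` is integral over `R[t]`. -/
theorem trace_mem_CInt {t : E} {c₀ : R} {n : ℕ} (hn0 : n ≠ 0) {γ : E'}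
    (hγ : IsRootExt K t c₀ n γ) [FiniteDimensional E E'] {y' : E'} (hy' : y' ∈ CInt R K γ) :
    Algebra.trace E E' y' ∈ CInt R K t := by
  letI : Algebra R[X] E := (evR R K t).toAlgebra
  letI : Algebra R[X] E' := ((algebraMap E E').comp (evR R K t)).toAlgebra
  haveI : IsScalarTower R[X] E E' := IsScalarTower.of_algebraMap_eq (fun _ => rfl)
  have hmap : ∀ p : R[X], algebraMap R[X] E' p = algebraMap E E' (evR R K t p) := fun _ => rfl
  -- `γ` is integral
  have hγint : IsIntegral R[X] γ := by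
    refine ⟨X ^ n - C (X - C c₀), monic_X_pow_sub_C _ hn0, ?_⟩
    rw [eval₂_sub, eval₂_pow, eval₂_X, eval₂_C, hmap, map_sub, evR_X, evR_C, hγ.pow_eq, sub_self]
  have hconst : ∀ a : R, IsIntegral R[X] (rE R K E' a) := by
    intro a
    have : rE R K E' a = algebraMap R[X] E' (C a) := by
      rw [hmap, evR_C, rE_tower (E := E)]
    rw [this]
    exact isIntegral_algebraMap
  have hrange : ∀ p : R[X], evR R K γ p ∈ integralClosure R[X] E' := by
    intro p
    induction p using Polynomial.induction_on' with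
    | add p q hp hq => rw [map_add]; exact add_mem hp hq
    | monomial k a =>
      rw [← C_mul_X_pow_eq_monomial, map_mul, map_pow, evR_C, evR_X]
      exact mul_mem (hconst a) (pow_mem hγint k)
  obtain ⟨P, hP, hP0⟩ := hy'
  let g : R[X] →+* integralClosure R[X] E' :=
    (evR R K γ).codRestrict (integralClosure R[X] E').toSubring hrange
  have hy1 : IsIntegral (integralClosure R[X] E') y' := by
    refine ⟨P.map g, hP.map g, ?_⟩
    rw [eval₂_map]
    have : (algebraMap (integralClosure R[X] E') E').comp g = evR R K γ := by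
      ext1 <;> rfl
    rw [this]
    exact hP0
  have hy2 : IsIntegral R[X] y' := isIntegral_trans y' hy1
  exact Algebra.isIntegral_trace hy2

end Transfer

theorem transfer (𝒱 : VData R K) {ϖ : R} (hϖ : Irreducible ϖ) {t : E} {ιt : 𝒱.Ω}
    (h : IsChart 𝒱 t ιt) {c₀ : R} {n : ℕ} (hn : IsUnit (n : R)) {γ : E'}
    (hγ : IsRootExt K t c₀ n γ) (z : E) (y' : E') (hy' : y' ∈ CInt R K γ)
    (hc : CongA K ϖ γ y' (algebraMap E E' z)) : ∃ y ∈ CInt R K t, CongA K ϖ t y z := by
  have hn0 : n ≠ 0 := by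
    rintro rfl
    rw [Nat.cast_zero] at hn
    exact not_isUnit_zero hn
  haveI : FiniteDimensional E E' :=
    Module.finite_of_finrank_pos (by rw [hγ.finrank_eq]; exact Nat.pos_of_ne_zero hn0)
  haveI : CharZero E := charZero_of_injective_algebraMap (algebraMap K E).injective
  obtain ⟨u, hu⟩ := hn.exists_left_inv
  obtain ⟨η', hη', hyz⟩ := hc
  -- integrality of the trace of `η'`
  have hηO : InO K ϖ t (Algebra.trace E E' η') := by
    rw [inO_iff_mem_OInt 𝒱 hϖ h]
    intro φ hφ
    letI : Algebra E 𝒱.Ω := φ.toAlgebra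
    have hsum := trace_eq_sum_embeddings (K := E) (L := E') 𝒱.Ω (x := η')
    have hφe : φ (Algebra.trace E E' η') = algebraMap E 𝒱.Ω (Algebra.trace E E' η') := rfl
    rw [hφe, hsum]
    refine sum_mem fun σ _ => ?_
    have hσE : ∀ a : E, σ (algebraMap E E' a) = φ a := fun a => σ.commutes a
    have hι : (σ γ) ^ n = ιt - 𝒱.ιK (algebraMap R K c₀) := by
      rw [← map_pow, hγ.pow_eq, hσE, map_sub, hφ.2, rE_apply]
      congr 1
      exact congrArg (fun f : K →+* 𝒱.Ω => f (algebraMap R K c₀)) hφ.1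
    have hσmem : (σ : E' →+* 𝒱.Ω) ∈ Emb 𝒱 γ (σ γ) := by
      refine ⟨?_, rfl⟩
      ext a
      have h1 : algebraMap K E' a = algebraMap E E' (algebraMap K E a) :=
        IsScalarTower.algebraMap_apply K E E' a
      show σ (algebraMap K E' a) = 𝒱.ιK a
      rw [h1, hσE]
      exact congrArg (fun f : K →+* 𝒱.Ω => f a) hφ.1
    have hch : IsChart 𝒱 γ (σ γ) := isChart_root 𝒱 h hn hγ hι
    exact (inO_iff_mem_OInt 𝒱 hϖ hch η').1 hη' _ hσmem
  refine ⟨rE R K E u * Algebra.trace E E' y',
    mul_mem (rE_mem_CInt t u) (Transfer.trace_mem_CInt hn0 hγ hy'),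
    rE R K E u * Algebra.trace E E' η',
    InO.mul hϖ (InO.of_mem_CInt hϖ (rE_mem_CInt t u)) hηO, ?_⟩
  have h1 := congrArg (Algebra.trace E E') hyz
  rw [map_sub, Algebra.trace_algebraMap, hγ.finrank_eq, Transfer.rE_tower (E := E), ← smul_eq_mul,
    algebraMap_smul, map_smul, smul_eq_mul] at h1
  have h2 : rE R K E u * (n • z) = z := by
    rw [nsmul_eq_mul, ← mul_assoc]
    have : rE R K E u * (n : E) = 1 := by
      rw [← map_natCast (rE R K E) n, ← map_mul, hu, map_one]
    rw [this, one_mul]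
  calc rE R K E u * Algebra.trace E E' y' - z
      = rE R K E u * (Algebra.trace E E' y' - n • z) := by rw [mul_sub, h2]
    _ = rE R K E ϖ * (rE R K E u * Algebra.trace E E' η') := by rw [h1]; ring

end Fermat.Agent.S18
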